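import Fermat.Agent.RelPic.Point.Twist
import Fermat.Agent.RelPic.Chart.Data

/-!
# Twisting has the properties used by the chart rings
-/

set_option autoImplicit false
set_option synthInstance.maxHeartbeats 400000

noncomputable section

universe u

open scoped TensorProduct

namespace Fermat.Agent.RelPic

variable {k : Type u} [Field k] {C : Model k} {R : Type u} [CommRing R] [Algebra k R]

namespace Idx

variable (i : Idx C)

/-- The twisted triple is a twist. -/
def isTwistTwist (hC : C.Regular) (T : Triple C R) : i.IsTwist T (i.twist hC T 0) where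
  ι := (Div.actN (i.twistDiv R 0) T).subtype
  inj := (Div.actN (i.twistDiv R 0) T).subtype_injective
  range v := ⟨fun h => ⟨⟨v, h⟩, rfl⟩, fun ⟨w, hw⟩ => hw ▸ w.2⟩
  mem_p w := (i.mem_twist_p hC T 0 w).trans ⟨fun h => h.2, fun h => ⟨w.2, h⟩⟩
  mem_m w := (i.mem_twist_m hC T 0 w).trans ⟨fun h => h.2, fun h => ⟨w.2, h⟩⟩

/-- Any twist is isomorphic to the twisted triple. -/
theorem IsTwist.nonempty_equiv_twist {i : Idx C} (hC : C.Regular) {T N : Triple C R}
    (tw : i.IsTwist T N) : Nonempty (Triple.Equiv N (i.twist hC T 0)) := by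
  let f : N.M →ₗ[C.A R] ↥(Div.actN (i.twistDiv R 0) T) :=
    tw.ι.codRestrict _ fun w => tw.ι_mem_sub w
  have hf : Function.Bijective f := by
    refine ⟨fun a b h => tw.inj (congrArg Subtype.val h), fun v => ?_⟩
    obtain ⟨w, hw⟩ := (tw.range v).mp v.2
    exact ⟨w, Subtype.ext hw⟩
  refine ⟨{ toEquiv := LinearEquiv.ofBijective f hf, mem_p := fun w => ?_, mem_m := fun w => ?_ }⟩
  · exact (tw.mem_p w).trans
      (Iff.symm ((i.mem_twist_p hC T 0 _).trans ⟨fun h => h.2, fun h => ⟨tw.ι_mem_sub w, h⟩⟩))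
  · exact (tw.mem_m w).trans
      (Iff.symm ((i.mem_twist_m hC T 0 _).trans ⟨fun h => h.2, fun h => ⟨tw.ι_mem_sub w, h⟩⟩))

/-- Twisting by the points of a chart index has all properties used for the chart rings. -/
theorem hasTwist (hC : C.Regular) : i.HasTwist where
  exists_twist _ _ _ T := ⟨_, ⟨i.isTwistTwist hC T⟩⟩
  exists_untwist R _ _ N := by
    obtain ⟨T, ⟨E⟩⟩ := i.exists_untwist hC N 0
    exact ⟨T, ⟨(i.isTwistTwist hC T).congr E.symm⟩⟩
  bc R R' _ _ _ _ φ T N T' N' := by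
    rintro ⟨tw⟩ ⟨tw'⟩ ⟨F⟩
    obtain ⟨E⟩ := tw.nonempty_equiv_twist hC
    obtain ⟨E'⟩ := tw'.nonempty_equiv_twist hC
    exact ⟨((i.twistBC hC F 0).congr_left E).congr_right E'.symm⟩
  cancel R _ _ T N T' N' := by
    rintro ⟨tw⟩ ⟨tw'⟩ ⟨E⟩
    obtain ⟨e⟩ := tw.nonempty_equiv_twist hC
    obtain ⟨e'⟩ := tw'.nonempty_equiv_twist hC
    exact i.twist_cancel hC 0 ((e.symm.trans E).trans e')

end Idx

end Fermat.Agent.RelPic
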