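import Fermat.Agent.RelPic.Complex.Equiv

/-!
# Change of base, evaluation and regular elements in the rings of a two-chart model
-/

set_option autoImplicit false

noncomputable section

universe u

open scoped TensorProduct
open Polynomial

namespace Fermat.Agent.RelPic

namespace Model

variable {k : Type u} [Field k] (C : Model k)
variable (R : Type u) [CommRing R] [Algebra k R]

/-- The first chart over `Spec R` as a map into the overlap. -/
def jp : R ⊗[k] C.Ap →ₐ[R] C.A R :=
  Algebra.TensorProduct.map (AlgHom.id R R) (Subalgebra.inclusion C.Ap_le)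

theorem jp_tmul (r : R) (a : C.Ap) :
    C.jp R (r ⊗ₜ a) = r ⊗ₜ Subalgebra.inclusion C.Ap_le a := rfl

theorem jp_mem (t : R ⊗[k] C.Ap) : C.jp R t ∈ C.Cp R := ⟨t, rfl⟩

theorem jp_injective : Function.Injective (C.jp R) := by
  have h := Module.Flat.lTensor_preserves_injective_linearMap (M := R)
    (Subalgebra.inclusion C.Ap_le).toLinearMap (Subalgebra.inclusion_injective C.Ap_le)
  exact h

/-- The coordinate in the first chart over `Spec R`. -/
abbrev xR : R ⊗[k] C.Ap := 1 ⊗ₜ ⟨C.x, C.x_mem⟩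

theorem jp_xR : C.jp R (C.xR R) = C.X₀ R := rfl

/-- A basis of the first chart over `R[X]`. -/
theorem exists_free_bc : ∃ b : Fin C.d → R ⊗[k] C.Ap, Function.Bijective
    fun f : Fin C.d → R[X] => ∑ i, aeval (C.xR R) (f i) * b i := by
  classical
  obtain ⟨b, hb⟩ := C.free_p
  let xA : C.Ap := ⟨C.x, C.x_mem⟩
  let L : (Fin C.d → k[X]) →ₗ[k] C.Ap :=
    { toFun := fun f => ∑ i, aeval xA (f i) * b i
      map_add' := fun f g => by simp [add_mul, Finset.sum_add_distrib]
      map_smul' := fun r f => by simp [Finset.smul_sum] }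
  let e := LinearEquiv.ofBijective L hb
  let E : (Fin C.d → R[X]) ≃ₗ[R] R ⊗[k] C.Ap :=
    (LinearEquiv.piCongrRight fun _ => ((polyEquivTensor' k R).toLinearEquiv)) ≪≫ₗ
      (TensorProduct.piRight k R R (fun _ : Fin C.d => k[X])).symm ≪≫ₗ e.baseChange k R _ _
  refine ⟨fun i => 1 ⊗ₜ b i, ?_⟩
  have key : ∀ f : Fin C.d → R[X],
      E f = ∑ i, aeval (C.xR R) (f i) * ((1 : R) ⊗ₜ[k] b i) := by
    intro f
    conv_lhs => rw [← Finset.univ_sum_single f]
    rw [map_sum]
    refine Finset.sum_congr rfl fun i _ => ?_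
    generalize f i = p
    induction p using Polynomial.induction_on' with
    | add p q hp hq => rw [Pi.single_add, map_add, hp, hq, map_add, add_mul]
    | monomial n a =>
      have h1 : (LinearEquiv.piCongrRight fun _ : Fin C.d => (polyEquivTensor' k R).toLinearEquiv)
          (Pi.single i (monomial n a)) = Pi.single i (a ⊗ₜ[k] (X ^ n : k[X])) := by
        ext j
        by_cases h : j = i
        · subst h
          simp [← C_mul_X_pow_eq_monomial, Algebra.TensorProduct.tmul_pow,
            Algebra.TensorProduct.tmul_mul_tmul]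
        · simp [h]
      show e.baseChange k R _ _ ((TensorProduct.piRight k R R (fun _ : Fin C.d => k[X])).symm _) = _
      rw [LinearEquiv.coe_coe, h1, TensorProduct.piRight_symm_single, LinearEquiv.baseChange_tmul]
      show a ⊗ₜ[k] (∑ j, aeval xA ((Pi.single i (X ^ n) : Fin C.d → k[X]) j) * b j) = _
      simp [Pi.single_apply, apply_ite (aeval xA), ite_mul, aeval_monomial, xA,
        Algebra.TensorProduct.algebraMap_apply, Algebra.TensorProduct.tmul_pow,
        Algebra.TensorProduct.tmul_mul_tmul]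
  convert E.bijective using 1
  exact (funext key).symm

theorem isRegular_xR_sub (r : R) :
    IsRegular (C.xR R - algebraMap R (R ⊗[k] C.Ap) r) := by
  obtain ⟨b, hb⟩ := C.exists_free_bc R
  have key : ∀ z, (C.xR R - algebraMap R (R ⊗[k] C.Ap) r) * z = 0 → z = 0 := by
    intro z hz
    obtain ⟨f, rfl⟩ := hb.2 z
    have h : (fun i => (X - Polynomial.C r) * f i) = 0 := hb.1 (by
      simp only [map_mul, map_sub, aeval_X, aeval_C, Pi.zero_apply, map_zero, zero_mul,
        Finset.sum_const_zero, mul_assoc, ← Finset.mul_sum]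
      exact hz)
    have hf : f = 0 := funext fun i => (monic_X_sub_C r).mul_right_eq_zero_iff.mp (congrFun h i)
    simp [hf]
  refine isLeftRegular_iff_isRegular.mp fun a a' h => sub_eq_zero.mp (key _ ?_)
  simp only at h
  rw [mul_sub, h, sub_self]

theorem isUnit_X₀ : IsUnit (C.X₀ R) := IsUnit.of_mul_eq_one _ (C.X₀_mul_Y₀ R)

theorem isUnit_Y₀ : IsUnit (C.Y₀ R) :=
  IsUnit.of_mul_eq_one _ (by rw [mul_comm]; exact C.X₀_mul_Y₀ R)

theorem isRegular_X₀_sub (r : R) : IsRegular (C.X₀ R - algebraMap R (C.A R) r) := by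
  refine isLeftRegular_iff_isRegular.mp fun a a' h => sub_eq_zero.mp ?_
  obtain ⟨n, t, ht⟩ := C.exists_pow_mul_mem_Cp R (a - a')
  have hj : C.jp R (C.xR R - algebraMap R _ r) = C.X₀ R - algebraMap R (C.A R) r := by
    rw [map_sub, AlgHom.commutes, jp_xR]
  have h0 : C.jp R ((C.xR R - algebraMap R _ r) * t) = C.jp R 0 := by
    simp only at h
    rw [map_mul, hj, map_zero, show C.jp R t = C.X₀ R ^ n * (a - a') from ht, mul_left_comm, mul_sub,
      h, sub_self, mul_zero]
  have h1 : t = 0 := (C.isRegular_xR_sub R r).left.mul_left_eq_zero_iff.mp (C.jp_injective R h0)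
  have h2 : C.X₀ R ^ n * (a - a') = 0 := by rw [← ht, h1]; exact map_zero (C.jp R)
  exact ((C.isUnit_X₀ R).pow n).mul_right_eq_zero.mp h2

variable {R} {R' : Type u} [CommRing R'] [Algebra k R'] (φ : R →ₐ[k] R')

theorem mapA_jp (t : R ⊗[k] C.Ap) :
    C.mapA φ (C.jp R t) = C.jp R' (Algebra.TensorProduct.map φ (AlgHom.id k C.Ap) t) := by
  induction t using TensorProduct.induction_on with
  | zero => simp
  | tmul r a => rfl
  | add x y hx hy => simp [hx, hy]

theorem mem_span_image_Cp {v : C.A R'} (hv : v ∈ C.Cp R') :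
    v ∈ Submodule.span R' (C.mapA φ '' (C.Cp R : Set (C.A R))) := by
  refine C.Cp_induction (P := fun v => v ∈ Submodule.span R' _) hv (fun r a ha => ?_)
    fun _ _ h h' => add_mem h h'
  rw [show r ⊗ₜ[k] a = r • C.mapA φ (1 ⊗ₜ a) by
    rw [mapA_tmul, map_one, TensorProduct.smul_tmul', smul_eq_mul, mul_one]]
  exact Submodule.smul_mem _ _ (Submodule.subset_span ⟨_, C.tmul_mem_Cp R 1 ha, rfl⟩)

theorem mem_span_image_Cm {v : C.A R'} (hv : v ∈ C.Cm R') :
    v ∈ Submodule.span R' (C.mapA φ '' (C.Cm R : Set (C.A R))) :=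
  C.swap.mem_span_image_Cp φ hv

theorem mem_span_range_mapA (v : C.A R') :
    v ∈ Submodule.span R' (Set.range (C.mapA φ)) := by
  induction v using TensorProduct.induction_on with
  | zero => exact zero_mem _
  | tmul r a =>
    rw [show r ⊗ₜ[k] a = r • C.mapA φ (1 ⊗ₜ a) by
      rw [mapA_tmul, map_one, TensorProduct.smul_tmul', smul_eq_mul, mul_one]]
    exact Submodule.smul_mem _ _ (Submodule.subset_span ⟨_, rfl⟩)
  | add x y hx hy => exact add_mem hx hy

variable (R)

theorem evalR_tmul (Q : C.Pt) (r : R) (a : C.A₀) : C.evalR R Q (r ⊗ₜ a) = r * algebraMap k R (Q a) := by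
  simp [Model.evalR, Algebra.smul_def, mul_comm]

theorem evalR_algebraMap_k (Q : C.Pt) (a : C.A₀) :
    C.evalR R Q (1 ⊗ₜ a) = algebraMap k R (Q a) := by
  rw [evalR_tmul, one_mul]

theorem pt_x₀_ne_zero (Q : C.Pt) : Q C.x₀ ≠ 0 := by
  intro h
  have e : C.x₀ * ⟨C.x⁻¹, C.Am_le C.x_inv_mem⟩ = 1 := Subtype.ext (mul_inv_cancel₀ C.x_ne)
  have h2 := congrArg Q e
  rw [map_mul, h, zero_mul, map_one] at h2
  exact zero_ne_one h2

end Model

end Fermat.Agent.RelPic
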