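import Fermat.Agent.RelPic.Point.DivMaps

/-!
# Divisors prime to the boundary of a chart
-/

set_option autoImplicit false

noncomputable section

universe u

open scoped Pointwise

namespace Fermat.Agent.RelPic

namespace DivData

variable {R A : Type u} [CommRing R] [CommRing A] [Algebra R A] {B : Subalgebra R A} {x : A}

/-- The submodule contains an element congruent to `1` modulo `x`. -/
def PrimeTo (x : A) (p : Submodule B A) : Prop := ∃ c ∈ B, 1 - c * x ∈ p

theorem primeTo_one : PrimeTo x (1 : Submodule B A) :=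
  ⟨0, zero_mem _, by rw [zero_mul, sub_zero]; exact Submodule.one_le.mp le_rfl⟩

theorem PrimeTo.mul (hx : x ∈ B) {p p' : Submodule B A} (h : PrimeTo x p) (h' : PrimeTo x p') :
    PrimeTo x (p * p') := by
  obtain ⟨c, hc, hp⟩ := h
  obtain ⟨c', hc', hp'⟩ := h'
  refine ⟨c + c' - c * c' * x, B.sub_mem (B.add_mem hc hc') (B.mul_mem (B.mul_mem hc hc') hx), ?_⟩
  rw [show 1 - (c + c' - c * c' * x) * x = (1 - c * x) * (1 - c' * x) by ring]
  exact Submodule.mul_mem_mul hp hp'

theorem PrimeTo.mem_smul (hx : x ∈ B) {J : Submodule A A} {p : Submodule B A}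
    (hpow : ∀ a ∈ J, ∃ n : ℕ, x ^ n * a ∈ p) (h : PrimeTo x p) {M : Type u} [AddCommGroup M]
    [Module A M] {q : Submodule B M} (hqpow : ∀ v : M, ∃ n : ℕ, x ^ n • v ∈ q) {v : M}
    (hv : v ∈ J • (⊤ : Submodule A M)) (hq : v ∈ q) : v ∈ p • q := by
  obtain ⟨c, hc, hcp⟩ := h
  have key : ∀ n : ℕ, x ^ n • v ∈ p • q → v ∈ p • q := by
    intro n hn
    have e : v = c ^ n • x ^ n • v + ((∑ i ∈ Finset.range n, (c * x) ^ i) * (1 - c * x)) • v := by
      rw [geom_sum_mul_neg, smul_smul, ← add_smul, mul_pow, add_sub_cancel, one_smul]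
    rw [e]
    refine add_mem ((p • q).smul_mem ⟨c ^ n, pow_mem hc n⟩ hn) ?_
    rw [mul_smul]
    have hs : ∑ i ∈ Finset.range n, (c * x) ^ i ∈ B :=
      B.sum_mem fun i _ => pow_mem (B.mul_mem hc hx) i
    exact (p • q).smul_mem ⟨_, hs⟩ (Submodule.smul_mem_smul hcp hq)
  have hex : ∃ n : ℕ, x ^ n • v ∈ p • q := by
    clear key hq
    induction hv using Submodule.smul_induction_on' with
    | smul a ha w _ =>
      obtain ⟨n, hn⟩ := hpow a ha
      obtain ⟨n', hn'⟩ := hqpow w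
      refine ⟨n + n', ?_⟩
      rw [pow_add, mul_smul, smul_comm (x ^ n') a w, ← mul_smul]
      exact Submodule.smul_mem_smul hn hn'
    | add a _ b _ ha hb =>
      obtain ⟨n, hn⟩ := ha
      obtain ⟨n', hn'⟩ := hb
      refine ⟨n + n', ?_⟩
      rw [smul_add]
      refine add_mem ?_ ?_
      · rw [add_comm, pow_add, mul_smul]
        exact (p • q).smul_mem (⟨x, hx⟩ ^ n') hn
      · rw [pow_add, mul_smul]
        exact (p • q).smul_mem (⟨x, hx⟩ ^ n) hn'
  obtain ⟨n, hn⟩ := hex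
  exact key n hn

end DivData

namespace DivData

variable {R A : Type u} [CommRing R] [CommRing A] [Algebra R A] {Bp Bm : Subalgebra R A}

/-- The same data with the charts exchanged. -/
def flip (D : DivData Bp Bm) : DivData Bm Bp := ⟨D.J, D.m, D.p⟩

theorem Good.flip {x y : A} {D : DivData Bp Bm} (h : D.Good x y) : D.flip.Good y x :=
  ⟨h.le_m, h.le_p, h.pow_m, h.pow_p, h.partner_m, h.partner_p⟩

section Maps

variable {R' A' : Type u} [CommRing R'] [CommRing A'] [Algebra R' A'] {Bp' Bm' : Subalgebra R' A'}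
  {h : A →+* A'}

theorem Maps.flip {D : DivData Bp Bm} {D' : DivData Bp' Bm'} (hM : Maps h D D') :
    Maps h D.flip D'.flip :=
  ⟨hM.map_J, hM.map_m, hM.map_p, hM.span_m, hM.span_p⟩

theorem maps_shift (hp : ∀ a ∈ Bp, h a ∈ Bp') (hm : ∀ a ∈ Bm, h a ∈ Bm')
    (hsp : ∀ a ∈ Bp', a ∈ Submodule.span R' (h '' Bp))
    (hsm : ∀ a ∈ Bm', a ∈ Submodule.span R' (h '' Bm)) {a b : A} :
    Maps h (shift a b : DivData Bp Bm) (shift (h a) (h b) : DivData Bp' Bm') := by
  have key : ∀ {B : Subalgebra R A} {B' : Subalgebra R' A'}, (∀ a ∈ B, h a ∈ B') →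
      (∀ a ∈ B', a ∈ Submodule.span R' (h '' B)) → ∀ (g : A),
      (∀ c ∈ Submodule.span B {g}, h c ∈ Submodule.span B' {h g}) ∧
      ∀ c ∈ Submodule.span B' {h g}, c ∈ Submodule.span R' (h '' (Submodule.span B {g} : Set A)) := by
    intro B B' h1 h2 g
    refine ⟨fun c hc => ?_, fun c hc => ?_⟩
    · obtain ⟨e, rfl⟩ := Submodule.mem_span_singleton.mp hc
      exact Submodule.mem_span_singleton.mpr ⟨⟨h e, h1 e e.2⟩, (map_mul h (e : A) g).symm⟩
    · obtain ⟨e, rfl⟩ := Submodule.mem_span_singleton.mp hc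
      show (e : A') * h g ∈ _
      have he := h2 e e.2
      generalize (e : A') = z at he ⊢
      induction he using Submodule.span_induction with
      | mem z hz =>
        obtain ⟨a, ha, rfl⟩ := hz
        rw [← map_mul]
        exact Submodule.subset_span
          ⟨_, Submodule.mem_span_singleton.mpr ⟨⟨a, ha⟩, rfl⟩, rfl⟩
      | zero => simp
      | add z z' _ _ hz hz' => rw [add_mul]; exact add_mem hz hz'
      | smul r z _ hz => rw [smul_mul_assoc]; exact Submodule.smul_mem _ r hz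
  exact ⟨fun c _ => mem_one_J (h c), (key hp hsp a).1, (key hm hsm b).1, (key hp hsp a).2,
    (key hm hsm b).2⟩

end Maps

end DivData

namespace DivData

variable {R A : Type u} [CommRing R] [CommRing A] [Algebra R A] {Bp Bm : Subalgebra R A}

/-- Any units may generate the two charts. -/
theorem good_shift_of_isUnit {x y : A} (hxy : IsChartPair Bp Bm x y) {gp gm : A} (hp : IsUnit gp)
    (hm : IsUnit gm) : (shift gp gm : DivData Bp Bm).Good x y where
  le_p c _ := mem_one_J c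
  le_m c _ := mem_one_J c
  pow_p c _ := by
    obtain ⟨u, hu⟩ := hp
    obtain ⟨n, hn⟩ := hxy.pow_x (↑u⁻¹ * c)
    refine ⟨n, Submodule.mem_span_singleton.mpr ⟨⟨_, hn⟩, ?_⟩⟩
    show x ^ n * (↑u⁻¹ * c) * gp = x ^ n * c
    rw [← hu, show x ^ n * (↑u⁻¹ * c) * (u : A) = x ^ n * c * (↑u⁻¹ * (u : A)) by ring,
      Units.inv_mul, mul_one]
  pow_m c _ := by
    obtain ⟨u, hu⟩ := hm
    obtain ⟨n, hn⟩ := hxy.pow_y (↑u⁻¹ * c)
    refine ⟨n, Submodule.mem_span_singleton.mpr ⟨⟨_, hn⟩, ?_⟩⟩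
    show y ^ n * (↑u⁻¹ * c) * gm = y ^ n * c
    rw [← hu, show y ^ n * (↑u⁻¹ * c) * (u : A) = y ^ n * c * (↑u⁻¹ * (u : A)) by ring,
      Units.inv_mul, mul_one]
  partner_p := ⟨1, gp, hp.isRegular, mul_one (Submodule.span Bp {gp})⟩
  partner_m := ⟨1, gm, hm.isRegular, mul_one (Submodule.span Bm {gm})⟩

end DivData

end Fermat.Agent.RelPic
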