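import Mathlib.LinearAlgebra.Dimension.RankNullity
import Mathlib.LinearAlgebra.FiniteDimensional.Basic
import Mathlib.LinearAlgebra.Dual.Lemmas

/-!
# Choosing points in general position

A family of functionals in which every nonzero vector has only finitely many zeros separates finite
dimensional subspaces one dimension at a time.
-/

set_option autoImplicit false

noncomputable section

namespace Fermat.Agent.RelPic.Greedy

variable {K V ι : Type*} [Field K] [AddCommGroup V] [Module K V] (r : ι → V →ₗ[K] K)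

/-- The common kernel of finitely many of the functionals. -/
def zerosAt (Z : Finset ι) : Submodule K V := ⨅ a ∈ Z, LinearMap.ker (r a)

theorem mem_zerosAt {Z : Finset ι} {v : V} : v ∈ zerosAt r Z ↔ ∀ a ∈ Z, r a v = 0 := by
  simp [zerosAt, Submodule.mem_iInf]

theorem finrank_inf_ker_add_one (U : Submodule K V) [FiniteDimensional K U] (f : V →ₗ[K] K)
    {v : V} (hv : v ∈ U) (hfv : f v ≠ 0) :
    Module.finrank K ↥(U ⊓ LinearMap.ker f) + 1 = Module.finrank K U := by
  have h0 : f ∘ₗ U.subtype ≠ 0 := fun h => hfv (LinearMap.congr_fun h ⟨v, hv⟩)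
  have h := Module.Dual.finrank_ker_add_one_of_ne_zero h0
  rw [← Submodule.map_comap_subtype, Submodule.finrank_map_subtype_eq, ← LinearMap.ker_comp]
  exact h

theorem exists_mem_ne_zero {U : Submodule K V} (h : 0 < Module.finrank K U) : ∃ v ∈ U, v ≠ 0 := by
  refine U.exists_mem_ne_zero_of_ne_bot fun hU => ?_
  rw [hU, finrank_bot] at h
  exact lt_irrefl _ h

/-- A dual family inside `W`. -/
def Separated (W : Submodule K V) (A : Finset ι) : Prop :=
  ∀ a ∈ A, ∃ w ∈ W, r a w ≠ 0 ∧ ∀ b ∈ A, b ≠ a → r b w = 0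

theorem Separated.injOn {W : Submodule K V} [FiniteDimensional K W] {A : Finset ι}
    (hA : Separated r W A) (hcard : A.card = Module.finrank K W) {v : V} (hv : v ∈ W)
    (h0 : ∀ a ∈ A, r a v = 0) : v = 0 := by
  classical
  let f : W →ₗ[K] A → K := LinearMap.pi fun a => r a ∘ₗ W.subtype
  have hsurj : Function.Surjective f := fun g => by
    choose w hw hne hzero using hA
    refine ⟨∑ a : A, (g a / r a (w a a.2)) • ⟨w a a.2, hw a a.2⟩, funext fun b => ?_⟩
    rw [map_sum, Finset.sum_apply, Finset.sum_eq_single b (fun a _ hab => ?_) (by simp)]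
    · show r b (((g b / r b (w b b.2)) • w b b.2 : V)) = g b
      rw [map_smul, smul_eq_mul, div_mul_cancel₀ _ (hne b b.2)]
    · show r b (((g a / r a (w a a.2)) • w a a.2 : V)) = 0
      rw [map_smul, hzero a a.2 b b.2 fun h => hab (Subtype.ext h.symm), smul_zero]
  have hinj : Function.Injective f :=
    (LinearMap.injective_iff_surjective_of_finrank_eq_finrank (by
      rw [Module.finrank_pi, Fintype.card_coe, hcard])).mpr hsurj
  exact congrArg Subtype.val (hinj (a₁ := ⟨v, hv⟩) (a₂ := 0) (funext fun a => by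
    rw [map_zero]; exact h0 a a.2))

theorem exists_mem_zeros {W : Submodule K V} [FiniteDimensional K W] (A : Finset ι)
    (hA : A.card < Module.finrank K W) : ∃ v ∈ W, v ≠ 0 ∧ ∀ a ∈ A, r a v = 0 := by
  let f : W →ₗ[K] A → K := LinearMap.pi fun a => r a ∘ₗ W.subtype
  obtain ⟨v, hv, hv0⟩ := (LinearMap.ker f).exists_mem_ne_zero_of_ne_bot
    (LinearMap.ker_ne_bot_of_finrank_lt (f := f) (by rwa [Module.finrank_pi, Fintype.card_coe]))
  exact ⟨v, v.2, fun h => hv0 (Subtype.ext h), fun a ha => congrFun hv ⟨a, ha⟩⟩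

variable [Infinite ι] (hfin : ∀ v : V, v ≠ 0 → {a | r a v = 0}.Finite) (e : ι)

include hfin in
/-- Cutting two nested spaces by points, keeping `P` and `M₀` spanning. -/
theorem exists_cut (P M₀ M₁ : Submodule K V) (hle : M₀ ≤ M₁) (htop : P ⊔ M₀ = ⊤)
    [FiniteDimensional K ↥(P ⊓ M₁)] {N d : ℕ} (hd : 0 < d)
    (hN₀ : Module.finrank K ↥(P ⊓ M₀) = N) (hN₁ : Module.finrank K ↥(P ⊓ M₁) = N + d)
    (he : ∃ u ∈ P ⊓ M₁, r e u ≠ 0) :
    ∃ Z : Finset ι, Z.card = N ∧ zerosAt r Z ≤ zerosAt r Z ⊓ P ⊔ zerosAt r Z ⊓ M₀ ∧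
      Module.finrank K ↥(zerosAt r Z ⊓ (P ⊓ M₁)) = d ∧
      ∃ u ∈ zerosAt r Z ⊓ (P ⊓ M₁), r e u ≠ 0 := by
  classical
  have : FiniteDimensional K ↥(P ⊓ M₀) :=
    Submodule.finiteDimensional_of_le (inf_le_inf_left P hle)
  suffices ∀ n ≤ N, ∃ Z : Finset ι, Z.card = n ∧
      (∀ u ∈ zerosAt r Z, ∃ a ∈ zerosAt r Z ⊓ P, ∃ b ∈ zerosAt r Z ⊓ M₀, a + b = u) ∧
      Module.finrank K ↥(zerosAt r Z ⊓ (P ⊓ M₀)) + n = N ∧
      Module.finrank K ↥(zerosAt r Z ⊓ (P ⊓ M₁)) + n = N + d ∧
      ∃ u ∈ zerosAt r Z ⊓ (P ⊓ M₁), r e u ≠ 0 by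
    obtain ⟨Z, hZ, hdec, -, h₁, hu⟩ := this N le_rfl
    exact ⟨Z, hZ, fun u hu => Submodule.mem_sup.mpr (hdec u hu), by omega, hu⟩
  intro n
  induction n with
  | zero =>
    have h : zerosAt r (∅ : Finset ι) = ⊤ := eq_top_iff.mpr fun v _ => (mem_zerosAt r).mpr (by simp)
    intro _
    refine ⟨∅, rfl, fun u _ => ?_, ?_, ?_, ?_⟩
    · simpa only [h, top_inf_eq] using Submodule.mem_sup.mp (htop.ge (Submodule.mem_top (x := u)))
    · rw [h, top_inf_eq, add_zero, hN₀]
    · rw [h, top_inf_eq, add_zero, hN₁]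
    · rw [h, top_inf_eq]; exact he
  | succ n ih =>
    intro hn
    obtain ⟨Z, hZ, hdec, h₀, h₁, u, hu, hue⟩ := ih (by omega)
    set S := zerosAt r Z with hS
    have : FiniteDimensional K ↥(S ⊓ (P ⊓ M₀)) := Submodule.finiteDimensional_of_le inf_le_right
    have : FiniteDimensional K ↥(S ⊓ (P ⊓ M₁)) := Submodule.finiteDimensional_of_le inf_le_right
    obtain ⟨v, hv, hv0⟩ := exists_mem_ne_zero (U := S ⊓ (P ⊓ M₀)) (by omega)
    have hk := finrank_inf_ker_add_one (S ⊓ (P ⊓ M₁)) (r e) hu hue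
    obtain ⟨w, ⟨hw, hwe⟩, hw0⟩ :=
      exists_mem_ne_zero (U := S ⊓ (P ⊓ M₁) ⊓ LinearMap.ker (r e)) (by omega)
    obtain ⟨q, hq⟩ := (((hfin v hv0).union (hfin w hw0)).union Z.finite_toSet).exists_notMem
    simp only [Set.mem_union, Set.mem_ofPred_eq, Finset.mem_coe, not_or] at hq
    obtain ⟨⟨hqv, hqw⟩, hqZ⟩ := hq
    have hins : zerosAt r (insert q Z) = S ⊓ LinearMap.ker (r q) := by
      rw [hS, zerosAt, zerosAt, Finset.iInf_insert, inf_comm]
    have hv₁ : v ∈ S ⊓ (P ⊓ M₁) := ⟨hv.1, hv.2.1, hle hv.2.2⟩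
    refine ⟨insert q Z, by rw [Finset.card_insert_of_notMem hqZ, hZ], fun x hx => ?_, ?_, ?_,
      u - (r q u / r q w) • w, ?_, ?_⟩
    · rw [hins] at hx ⊢
      obtain ⟨a, ha, b, hb, hab⟩ := hdec x hx.1
      set c := r q a / r q v
      have hva : r q (a - c • v) = 0 := by
        rw [map_sub, map_smul, smul_eq_mul, div_mul_cancel₀ _ hqv, sub_self]
      have hsum : a - c • v + (b + c • v) = x := by rw [← hab]; abel
      refine ⟨a - c • v, ⟨⟨sub_mem ha.1 (S.smul_mem c hv.1), hva⟩,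
          sub_mem ha.2 (P.smul_mem c hv.2.1)⟩,
        b + c • v, ⟨⟨add_mem hb.1 (S.smul_mem c hv.1), ?_⟩,
          add_mem hb.2 (M₀.smul_mem c hv.2.2)⟩, hsum⟩
      have hx0 : r q x = 0 := hx.2
      rw [← hsum, map_add, hva, zero_add] at hx0
      exact hx0
    · rw [hins, inf_right_comm]
      have := finrank_inf_ker_add_one (S ⊓ (P ⊓ M₀)) (r q) hv hqv
      omega
    · rw [hins, inf_right_comm]
      have := finrank_inf_ker_add_one (S ⊓ (P ⊓ M₁)) (r q) hv₁ hqv
      omega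
    · rw [hins, inf_right_comm]
      refine ⟨sub_mem hu (Submodule.smul_mem _ _ hw), ?_⟩
      show r q _ = 0
      rw [map_sub, map_smul, smul_eq_mul, div_mul_cancel₀ _ hqw, sub_self]
    · have hwe' : r e w = 0 := hwe
      rw [map_sub, map_smul, hwe', smul_zero, sub_zero]
      exact hue

include hfin in
/-- A basis dual to points at which, and at `e`, it is in general position. -/
theorem exists_dual (W : Submodule K V) [FiniteDimensional K W] {d : ℕ}
    (hW : Module.finrank K W = d) (he : ∃ w ∈ W, r e w ≠ 0) :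
    ∃ (P : Fin d → ι) (s : Fin d → V), Function.Injective P ∧ (∀ j, s j ∈ W) ∧
      (∀ v ∈ W, ∃! f : Fin d → K, ∑ j, f j • s j = v) ∧
      (∀ j l, j ≠ l → r (P l) (s j) = 0) ∧ (∀ j, r (P j) (s j) ≠ 0) ∧ ∀ j, r e (s j) ≠ 0 := by
  classical
  obtain ⟨Ω, heΩ, hΩ, hsep⟩ : ∃ Ω : Finset ι, e ∈ Ω ∧ Ω.card = d + 1 ∧
      ∀ A ⊆ Ω, A.card ≤ d → Separated r W A := by
    suffices ∀ n, ∃ Ω : Finset ι, e ∈ Ω ∧ Ω.card = n + 1 ∧
        ∀ A ⊆ Ω, A.card ≤ d → Separated r W A from this d
    intro n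
    induction n with
    | zero =>
      refine ⟨{e}, Finset.mem_singleton_self e, rfl, fun A hA _ a ha => ?_⟩
      obtain rfl := Finset.mem_singleton.mp (hA ha)
      obtain ⟨w, hw, hne⟩ := he
      exact ⟨w, hw, hne, fun b hb hba => absurd (Finset.mem_singleton.mp (hA hb)) hba⟩
    | succ n ih =>
      obtain ⟨Ω, heΩ, hΩ, hsep⟩ := ih
      let 𝒜 := {A : Finset ι | A ⊆ Ω ∧ A.card < d}
      have h𝒜 : 𝒜.Finite := Ω.powerset.finite_toSet.subset fun A hA => Finset.mem_powerset.mpr hA.1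
      choose! w hw hw0 hwz using fun A (hA : A ∈ 𝒜) => exists_mem_zeros r (W := W) A (hW ▸ hA.2)
      obtain ⟨q, hq⟩ :=
        ((h𝒜.biUnion fun A hA => hfin (w A) (hw0 A hA)).union Ω.finite_toSet).exists_notMem
      simp only [Set.mem_union, Set.mem_iUnion, Set.mem_ofPred_eq, Finset.mem_coe, not_or,
        not_exists] at hq
      obtain ⟨hqA, hqΩ⟩ := hq
      refine ⟨insert q Ω, Finset.mem_insert_of_mem heΩ,
        by rw [Finset.card_insert_of_notMem hqΩ, hΩ], fun A hA hcard a ha => ?_⟩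
      by_cases hqA' : q ∈ A
      · have hsub : A.erase q ⊆ Ω := fun b hb =>
          (Finset.mem_insert.mp (hA (Finset.mem_of_mem_erase hb))).resolve_left
            (Finset.ne_of_mem_erase hb)
        have hB : A.erase q ∈ 𝒜 := by
          refine ⟨hsub, ?_⟩
          rw [Finset.card_erase_of_mem hqA']
          have := Finset.card_pos.mpr ⟨q, hqA'⟩
          omega
        set x := w (A.erase q)
        by_cases haq : a = q
        · exact ⟨x, hw _ hB, haq ▸ hqA _ hB, fun b hb hba =>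
            hwz _ hB b (Finset.mem_erase.mpr ⟨haq ▸ hba, hb⟩)⟩
        · have ha' : a ∈ A.erase q := Finset.mem_erase.mpr ⟨haq, ha⟩
          obtain ⟨y, hy, hya, hyz⟩ := hsep _ hsub (le_of_lt hB.2) a ha'
          refine ⟨y - (r q y / r q x) • x, sub_mem hy (W.smul_mem _ (hw _ hB)), ?_, fun b hb hba => ?_⟩
          · rwa [map_sub, map_smul, hwz _ hB a ha', smul_zero, sub_zero]
          · by_cases hbq : b = q
            · rw [hbq, map_sub, map_smul, smul_eq_mul, div_mul_cancel₀ _ (hqA _ hB), sub_self]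
            · have hb' : b ∈ A.erase q := Finset.mem_erase.mpr ⟨hbq, hb⟩
              rw [map_sub, map_smul, hwz _ hB b hb', smul_zero, sub_zero, hyz b hb' hba]
      · exact hsep A (fun b hb => (Finset.mem_insert.mp (hA hb)).resolve_left
          fun h => hqA' (h ▸ hb)) hcard a ha
  have hA₀ : (Ω.erase e).card = d := by rw [Finset.card_erase_of_mem heΩ, hΩ]; omega
  let E := (Finset.equivFinOfCardEq hA₀).symm
  let P : Fin d → ι := fun j => (E j : ι)
  have hPinj : Function.Injective P := fun a b h => E.injective (Subtype.ext h)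
  have hPe : ∀ j, P j ∈ Ω.erase e := fun j => (E j).2
  have hS₀ := hsep _ (Finset.erase_subset e Ω) hA₀.le
  choose s hs hsne hsz using fun j => hS₀ (P j) (hPe j)
  have hoff : ∀ j l, j ≠ l → r (P l) (s j) = 0 := fun j l hjl =>
    hsz j (P l) (hPe l) fun h => hjl (hPinj h).symm
  refine ⟨P, s, hPinj, hs, fun v hv => ?_, hoff, hsne, fun j hj => ?_⟩
  · have hval : ∀ (g : Fin d → K) l, r (P l) (∑ j, g j • s j) = g l * r (P l) (s l) := fun g l => by
      rw [map_sum, Finset.sum_eq_single l (fun j _ hjl => by rw [map_smul, hoff j l hjl, smul_zero])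
        (by simp), map_smul, smul_eq_mul]
    refine ⟨fun j => r (P j) v / r (P j) (s j), ?_, fun g hg => funext fun l => ?_⟩
    · refine sub_eq_zero.mp (hS₀.injOn r (hA₀.trans hW.symm)
        (sub_mem (Submodule.sum_mem _ fun j _ => W.smul_mem _ (hs j)) hv) fun a ha => ?_)
      obtain ⟨l, rfl⟩ : ∃ l, P l = a := ⟨E.symm ⟨a, ha⟩, by simp [P]⟩
      rw [map_sub, hval, div_mul_cancel₀ _ (hsne l), sub_self]
    · show g l = _
      rw [← hg, hval, mul_div_cancel_right₀ _ (hsne l)]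
  · have hcard : (Ω.erase (P j)).card = d := by
      rw [Finset.card_erase_of_mem (Finset.mem_of_mem_erase (hPe j)), hΩ]; omega
    refine hsne j ?_
    rw [(hsep _ (Finset.erase_subset _ Ω) hcard.le).injOn r (hcard.trans hW.symm) (hs j)
      fun a ha => ?_, map_zero]
    by_cases hae : a = e
    · rw [hae, hj]
    · exact hsz j a (Finset.mem_erase.mpr ⟨hae, Finset.mem_of_mem_erase ha⟩)
        (Finset.ne_of_mem_erase ha)

end Fermat.Agent.RelPic.Greedy
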