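import Fermat.Agent.RelPic.Point.Basics

/-!
# Rational points of a model over an algebraically closed field

There are infinitely many, and a nonzero function vanishes at only finitely many of them.
-/

set_option autoImplicit false
set_option linter.style.haveILetI false

noncomputable section

universe u

open scoped TensorProduct
open Polynomial

namespace Fermat.Agent.RelPic

namespace Model

variable {k : Type u} [Field k] (C : Model k)

/-- The first chart as an algebra over the polynomials in the coordinate. -/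
@[reducible] def apAlgebra : Algebra k[X] C.Ap :=
  (aeval (⟨C.x, C.x_mem⟩ : C.Ap)).toRingHom.toAlgebra

attribute [local instance] apAlgebra

theorem algebraMap_Ap (f : k[X]) :
    algebraMap k[X] C.Ap f = aeval (⟨C.x, C.x_mem⟩ : C.Ap) f := rfl

theorem module_finite_Ap : Module.Finite k[X] C.Ap := by
  obtain ⟨b, hb⟩ := C.free_p
  refine Module.Finite.of_surjective (Fintype.linearCombination k[X] b) fun a => ?_
  obtain ⟨f, hf⟩ := hb.2 a
  exact ⟨f, (Fintype.linearCombination_apply ..).trans hf⟩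

theorem ker_algebraMap_Ap : RingHom.ker (algebraMap k[X] C.Ap) = ⊥ := by
  refine (RingHom.injective_iff_ker_eq_bot _).mp fun f g h => C.aeval_x_injective ?_
  have := congrArg C.Ap.val h
  rwa [algebraMap_Ap, algebraMap_Ap, ← aeval_algHom_apply, ← aeval_algHom_apply] at this

/-- The first chart has a rational point over every value of the coordinate. -/
theorem exists_algHom_Ap [IsAlgClosed k] (x₀ : k) :
    ∃ P : C.Ap →ₐ[k] k, P ⟨C.x, C.x_mem⟩ = x₀ := by
  haveI := C.module_finite_Ap
  haveI : (RingHom.ker (aeval x₀ : k[X] →ₐ[k] k)).IsMaximal :=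
    RingHom.ker_isMaximal_of_surjective _ fun a => ⟨Polynomial.C a, aeval_C _ _⟩
  obtain ⟨𝔪, h𝔪, hcomap⟩ := Ideal.exists_ideal_over_maximal_of_isIntegral (S := C.Ap)
    (RingHom.ker (aeval x₀ : k[X] →ₐ[k] k)) (C.ker_algebraMap_Ap ▸ bot_le)
  haveI := h𝔪
  letI : Field (C.Ap ⧸ 𝔪) := Ideal.Quotient.field 𝔪
  have hspec : ∀ g : k[X], Ideal.Quotient.mk 𝔪 (algebraMap k[X] C.Ap g) =
      algebraMap k (C.Ap ⧸ 𝔪) (aeval x₀ g) := fun g => by
    have h : g - Polynomial.C (aeval x₀ g) ∈ 𝔪.comap (algebraMap k[X] C.Ap) := by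
      rw [hcomap, RingHom.mem_ker, map_sub, aeval_C]; exact sub_self (aeval x₀ g)
    rw [Ideal.mem_comap, map_sub, ← Ideal.Quotient.eq_zero_iff_mem, map_sub, sub_eq_zero] at h
    rw [h, algebraMap_Ap, aeval_C]
    rfl
  haveI : Algebra.IsIntegral k (C.Ap ⧸ 𝔪) := ⟨fun z => by
    obtain ⟨a, rfl⟩ := Ideal.Quotient.mk_surjective z
    obtain ⟨p, hp, hpa⟩ := Algebra.IsIntegral.isIntegral (R := k[X]) a
    refine ⟨p.map (aeval x₀ : k[X] →ₐ[k] k).toRingHom, hp.map _, ?_⟩
    have h := congrArg (Ideal.Quotient.mk 𝔪) hpa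
    rw [map_zero, hom_eval₂] at h
    rw [eval₂_map]
    rw [show (algebraMap k (C.Ap ⧸ 𝔪)).comp (aeval x₀ : k[X] →ₐ[k] k).toRingHom =
      (Ideal.Quotient.mk 𝔪).comp (algebraMap k[X] C.Ap) from RingHom.ext fun g => (hspec g).symm]
    exact h⟩
  let E := AlgEquiv.ofBijective (Algebra.ofId k (C.Ap ⧸ 𝔪))
    IsAlgClosed.algebraMap_bijective_of_isIntegral
  refine ⟨E.symm.toAlgHom.comp (Ideal.Quotient.mkₐ k 𝔪), E.injective ?_⟩
  rw [AlgHom.comp_apply]
  show E (E.symm _) = _
  rw [AlgEquiv.apply_symm_apply]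
  refine Eq.trans ?_ ((hspec X).trans (congrArg _ (aeval_X x₀)))
  exact congrArg _ (aeval_X (⟨C.x, C.x_mem⟩ : C.Ap)).symm

/-- A rational point over every nonzero value of the coordinate. -/
theorem exists_pt [IsAlgClosed k] {x₀ : k} (hx₀ : x₀ ≠ 0) : ∃ P : C.Pt, P C.x₀ = x₀ := by
  obtain ⟨P, hP⟩ := C.exists_algHom_Ap x₀
  letI : Algebra C.Ap C.A₀ := (Subalgebra.inclusion C.Ap_le).toRingHom.toAlgebra
  haveI : IsScalarTower k C.Ap C.A₀ := IsScalarTower.of_algebraMap_eq fun _ => rfl
  let xA : C.Ap := ⟨C.x, C.x_mem⟩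
  haveI : IsLocalization (Submonoid.powers xA) C.A₀ := by
    refine (isLocalization_iff (Submonoid.powers xA) C.A₀).mpr ⟨?_, fun a => ?_, fun h => ⟨1, by
      rw [Subalgebra.inclusion_injective C.Ap_le h]⟩⟩
    · rintro ⟨_, n, rfl⟩
      show IsUnit (algebraMap C.Ap C.A₀ (xA ^ n))
      rw [map_pow]
      exact (IsUnit.of_mul_eq_one (⟨C.x⁻¹, C.Am_le C.x_inv_mem⟩ : C.A₀)
        (Subtype.ext (mul_inv_cancel₀ C.x_ne))).pow n
    · obtain ⟨n, hn⟩ := C.exists_mul_pow_mem a a.2
      exact ⟨⟨⟨_, hn⟩, ⟨xA ^ n, n, rfl⟩⟩, Subtype.ext rfl⟩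
  have hunit : ∀ y : Submonoid.powers xA, IsUnit (P y) := by
    rintro ⟨_, n, rfl⟩
    show IsUnit (P (xA ^ n))
    rw [map_pow, hP]
    exact (isUnit_iff_ne_zero.mpr hx₀).pow n
  refine ⟨IsLocalization.liftAlgHom (M := Submonoid.powers xA) hunit, ?_⟩
  rw [IsLocalization.liftAlgHom_apply]
  exact (IsLocalization.lift_eq _ xA).trans hP

/-- There are infinitely many rational points. -/
theorem infinite_pt [IsAlgClosed k] : Infinite C.Pt := by
  haveI : Infinite {t : k // t ≠ 0} := (Set.finite_singleton (0 : k)).infinite_compl.to_subtype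
  choose P hP using fun t : {t : k // t ≠ 0} => C.exists_pt t.2
  exact Infinite.of_injective P fun s t h => Subtype.ext (by rw [← hP s, ← hP t, h])

theorem pt_aeval (P : C.Pt) (f : k[X]) :
    P (Subalgebra.inclusion C.Ap_le (algebraMap k[X] C.Ap f)) = aeval (P C.x₀) f :=
  (aeval_algHom_apply (P.comp (Subalgebra.inclusion C.Ap_le)) _ f).symm

/-- A nonzero function on the overlap has finitely many zeros among the rational points. -/
theorem finite_zeros_A₀ {a : C.A₀} (ha : a ≠ 0) : {P : C.Pt | P a = 0}.Finite := by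
  classical
  haveI := C.module_finite_Ap
  obtain ⟨n, hn⟩ := C.exists_mul_pow_mem a a.2
  let β : C.Ap := ⟨_, hn⟩
  have hβ : β ≠ 0 := fun h => mul_ne_zero (fun h' => ha (Subtype.ext h')) (pow_ne_zero n C.x_ne)
    (congrArg Subtype.val h)
  obtain ⟨s, hs, hs0⟩ := Submodule.exists_mem_ne_zero_of_ne_bot
    (Ideal.comap_ne_bot_of_integral_mem hβ (Ideal.mem_span_singleton_self β)
      (Algebra.IsIntegral.isIntegral (R := k[X]) β))
  obtain ⟨γ, hγ⟩ := Ideal.mem_span_singleton'.mp (Ideal.mem_comap.mp hs)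
  obtain ⟨b, hb⟩ := C.free_p
  choose p hp hpb using fun i => Algebra.IsIntegral.isIntegral (R := k[X]) (b i)
  let T : Set k := {t | s.IsRoot t}
  let R : Fin C.d → k → Set k := fun i t => {z | ((p i).map (aeval t).toRingHom).IsRoot z}
  let Φ : C.Pt → k × (Fin C.d → k) := fun P => (P C.x₀, fun i => P (Subalgebra.inclusion C.Ap_le (b i)))
  have hT : (⋃ t ∈ T, ({t} : Set k) ×ˢ {f : Fin C.d → k | ∀ i, f i ∈ R i t}).Finite :=
    (Polynomial.finite_setOfPred_isRoot hs0).biUnion fun t _ => (Set.finite_singleton t).prod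
      (Set.Finite.pi' fun i => Polynomial.finite_setOfPred_isRoot ((hp i).map _).ne_zero)
  refine Set.Finite.of_finite_image (hT.subset ?_) (f := Φ) (Function.Injective.injOn ?_)
  · rintro _ ⟨P, hP, rfl⟩
    refine Set.mem_biUnion (x := P C.x₀) ?_ ⟨rfl, fun i => ?_⟩
    · have h : P (Subalgebra.inclusion C.Ap_le (γ * β)) = 0 := by
        rw [map_mul, map_mul, show Subalgebra.inclusion C.Ap_le β = a * C.x₀ ^ n from
          Subtype.ext rfl, map_mul, show P a = 0 from hP, zero_mul, mul_zero]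
      rw [hγ, pt_aeval] at h
      exact h
    · have h := congrArg (P.comp (Subalgebra.inclusion C.Ap_le)) (hpb i)
      rw [map_zero, ← AlgHom.coe_toRingHom, hom_eval₂] at h
      show ((p i).map (aeval (P C.x₀)).toRingHom).eval _ = 0
      rw [eval_map]
      rw [show (aeval (P C.x₀)).toRingHom =
        (P.comp (Subalgebra.inclusion C.Ap_le)).toRingHom.comp (algebraMap k[X] C.Ap) from
        RingHom.ext fun f => (C.pt_aeval P f).symm]
      exact h
  · intro P P' h
    obtain ⟨h1, h2⟩ := Prod.ext_iff.mp h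
    have hAp : ∀ v : C.Ap,
        P (Subalgebra.inclusion C.Ap_le v) = P' (Subalgebra.inclusion C.Ap_le v) := fun v => by
      obtain ⟨f, rfl⟩ := hb.2 v
      simp only [map_sum, map_mul]
      refine Finset.sum_congr rfl fun i _ => ?_
      rw [← algebraMap_Ap, pt_aeval, pt_aeval, show P C.x₀ = P' C.x₀ from h1,
        show P (Subalgebra.inclusion C.Ap_le (b i)) = _ from congrFun h2 i]
    refine AlgHom.ext fun v => ?_
    obtain ⟨m, hm⟩ := C.exists_mul_pow_mem v v.2
    have e : v * C.x₀ ^ m = Subalgebra.inclusion C.Ap_le ⟨_, hm⟩ := Subtype.ext rfl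
    have h3 := hAp ⟨_, hm⟩
    rw [← e, map_mul, map_mul, map_pow, map_pow, show P C.x₀ = P' C.x₀ from h1] at h3
    exact mul_right_cancel₀ (pow_ne_zero m (C.pt_x₀_ne_zero P')) h3

/-- A nonzero function on the overlap over a field has finitely many zeros among the rational
points. -/
theorem finite_zeros {K : Type u} [Field K] [Algebra k K] {a : C.A K} (ha : a ≠ 0) :
    {P : C.Pt | C.evalR K P a = 0}.Finite := by
  classical
  let B := Module.Free.chooseBasis k K
  let E := TensorProduct.equivFinsuppOfBasisLeft (N := C.A₀) B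
  have key : ∀ (P : C.Pt) (v : C.A K) i, B.repr (C.evalR K P v) i = P (E v i) := by
    intro P v i
    induction v using TensorProduct.induction_on with
    | zero => simp
    | tmul r c =>
      rw [evalR_tmul, mul_comm, ← Algebra.smul_def, map_smul, Finsupp.smul_apply,
        TensorProduct.equivFinsuppOfBasisLeft_apply_tmul_apply, map_smul, smul_eq_mul, smul_eq_mul,
        mul_comm]
    | add v w hv hw => simp only [map_add, Finsupp.add_apply, hv, hw]
  obtain ⟨i, hi⟩ := Finsupp.ne_iff.mp fun h => ha (E.injective (h.trans (map_zero E).symm))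
  refine (C.finite_zeros_A₀ hi).subset fun P hP => ?_
  show P (E a i) = 0
  rw [← key, show C.evalR K P a = 0 from hP, map_zero, Finsupp.zero_apply]

end Model

end Fermat.Agent.RelPic
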