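import Fermat.Agent.RelPic.Contracts
import Fermat.Agent.RelPic.Complex.Degree
import Fermat.Agent.RelPic.Chart.Fibre
import Fermat.Agent.RelPic.Cut.Rigidify
import Fermat.Agent.RelPic.Point.Zeros
import Fermat.Agent.RelPic.Point.Greedy

/-!
# The charts cover the bundles of degree zero

Over an algebraically closed ground field every degree zero triple over a field extension lies in a
chart whose points are rational over the ground field.
-/

set_option autoImplicit false
set_option synthInstance.maxHeartbeats 400000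
set_option maxHeartbeats 1600000

noncomputable section

universe u

open scoped TensorProduct

namespace Fermat.Agent.RelPic

theorem mem_mul_smul_top_iff_of_coprime {A M : Type*} [CommRing A] [AddCommGroup M] [Module A M]
    {I J : Ideal A} (h : I ⊔ J = ⊤) {v : M} :
    v ∈ (I * J) • (⊤ : Submodule A M) ↔
      v ∈ I • (⊤ : Submodule A M) ∧ v ∈ J • (⊤ : Submodule A M) := by
  have hl : I * J ≤ I := Ideal.mul_le_left
  have hr : I * J ≤ J := Ideal.mul_le_right
  refine ⟨fun hv => ⟨Submodule.smul_mono_left hl hv, Submodule.smul_mono_left hr hv⟩,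
    fun ⟨h1, h2⟩ => ?_⟩
  obtain ⟨i, hi, j, hj, hij⟩ := Submodule.mem_sup.mp (h.ge (Submodule.mem_top (x := (1 : A))))
  rw [← one_smul A v, ← hij, add_smul]
  refine add_mem ?_ ?_
  · rw [Submodule.mul_smul]
    exact Submodule.smul_mem_smul hi h2
  · rw [mul_comm, Submodule.mul_smul]
    exact Submodule.smul_mem_smul hj h1

variable {k : Type u} [Field k] {C : Model k}

theorem Model.sup_ker_evalR_eq_top (K : Type u) [Field K] [Algebra k K] {Q Q' : C.Pt}
    (h : Q ≠ Q') : RingHom.ker (C.evalR K Q) ⊔ RingHom.ker (C.evalR K Q') = ⊤ := by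
  obtain ⟨a, ha⟩ : ∃ a, Q a ≠ Q' a := by
    by_contra hne
    exact h (AlgHom.ext (by simpa using hne))
  set f : C.A K := 1 ⊗ₜ a - algebraMap K (C.A K) (algebraMap k K (Q' a))
  have hf' : C.evalR K Q' f = 0 := by
    rw [map_sub, C.evalR_algebraMap_k, AlgHom.commutes]; exact sub_self (algebraMap k K (Q' a))
  have hf : C.evalR K Q f ≠ 0 := by
    rw [map_sub, C.evalR_algebraMap_k, AlgHom.commutes, sub_ne_zero]
    exact fun he => ha ((algebraMap k K).injective he)
  refine (Ideal.eq_top_iff_one _).mpr ?_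
  set g : C.A K := f * algebraMap K (C.A K) (C.evalR K Q f)⁻¹
  rw [← sub_add_cancel 1 g]
  refine Submodule.add_mem_sup (RingHom.mem_ker.mpr ?_) (RingHom.mem_ker.mpr ?_)
  · rw [map_sub, map_one, map_mul, AlgHom.commutes]
    show (1 : K) - C.evalR K Q f * (C.evalR K Q f)⁻¹ = 0
    rw [mul_inv_cancel₀ hf, sub_self]
  · rw [map_mul, hf', zero_mul]

theorem Model.sup_prod_ker_evalR_eq_top (K : Type u) [Field K] [Algebra k K] (Q : C.Pt)
    (L : List C.Pt) (h : Q ∉ L) :
    RingHom.ker (C.evalR K Q) ⊔ (L.map fun Q' => RingHom.ker (C.evalR K Q')).prod = ⊤ := by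
  induction L with
  | nil => rw [List.map_nil, List.prod_nil, Ideal.one_eq_top, sup_top_eq]
  | cons Q' L ih =>
    rw [List.mem_cons, not_or] at h
    rw [List.map_cons, List.prod_cons,
      Ideal.sup_mul_eq_of_coprime_left (C.sup_ker_evalR_eq_top K h.1)]
    exact ih h.2

namespace Triple

variable {K : Type u} [Field K] [Algebra k K] (T : Triple C K)

theorem exists_coordAt (P : C.Pt) : ∃ r : T.M →ₗ[K] K,
    (∀ (a : C.A K) (v : T.M), r (a • v) = C.evalR K P a * r v) ∧ Function.Surjective r := by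
  obtain ⟨ψ, v, hv⟩ := T.exists_functional_notMem P (⊥ : Ideal K)
  rw [Ideal.mem_bot] at hv
  refine ⟨(C.evalR K P).toLinearMap ∘ₗ ψ.restrictScalars K, fun a w => ?_,
    fun t => ⟨(t / C.evalR K P (ψ v)) • v, ?_⟩⟩
  · show C.evalR K P (ψ (a • w)) = _
    rw [_root_.map_smul, smul_eq_mul, map_mul]
    rfl
  · rw [_root_.map_smul]
    exact div_mul_cancel₀ t hv

/-- A nonzero section vanishes at only finitely many rational points. -/
theorem finite_vanishAt {v : T.M} (hv : v ≠ 0) :
    {P : C.Pt | v ∈ T.vanishAt (C.evalR K P)}.Finite := by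
  obtain ⟨N, g, S, -, hsum, -⟩ := T.exists_frame
  obtain ⟨i, hi⟩ : ∃ i, S v i ≠ 0 := by
    by_contra hne
    push Not at hne
    exact hv (by rw [← hsum v]; exact Finset.sum_eq_zero fun i _ => by rw [hne i]; exact zero_smul (C.A K) (g i))
  refine (C.finite_zeros hi).subset fun P hP => ?_
  rw [Set.mem_ofPred_eq, vanishAt, Submodule.restrictScalars_mem] at hP
  show C.evalR K P (S v i) = 0
  clear hv hi
  induction hP using Submodule.smul_induction_on' with
  | smul a ha w _ =>
    rw [_root_.map_smul, Pi.smul_apply, smul_eq_mul, map_mul, RingHom.mem_ker.mp ha, zero_mul]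
  | add x _ y _ hx hy => rw [map_add, Pi.add_apply, map_add, hx, hy, add_zero]

theorem mem_prod_smul_top_iff {r : C.Pt → T.M →ₗ[K] K}
    (hr : ∀ Q (a : C.A K) (v : T.M), r Q (a • v) = C.evalR K Q a * r Q v)
    (hsurj : ∀ Q, Function.Surjective (r Q)) {L : List C.Pt} (hL : L.Nodup) {v : T.M} :
    v ∈ (L.map fun Q => RingHom.ker (C.evalR K Q)).prod • (⊤ : Submodule (C.A K) T.M) ↔
      ∀ Q ∈ L, r Q v = 0 := by
  induction L generalizing v with
  | nil => simp
  | cons Q L ih =>
    rw [List.nodup_cons] at hL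
    rw [List.map_cons, List.prod_cons, List.forall_mem_cons, ← ih hL.2,
      mem_mul_smul_top_iff_of_coprime (C.sup_prod_ker_evalR_eq_top K Q L hL.1)]
    exact and_congr_left' (T.mem_vanishAt_iff (hr Q) (hsurj Q))

theorem vanishAt_sup_span_eq_top {r : T.M →ₗ[K] K} {q : C.A K →ₐ[K] K}
    (hr : ∀ (a : C.A K) v, r (a • v) = q a * r v) (hsurj : Function.Surjective r) {s : T.M}
    (hs : r s ≠ 0) : T.vanishAt q ⊔ Submodule.span K {s} = ⊤ := by
  refine eq_top_iff.mpr fun v _ => ?_
  rw [← sub_add_cancel v ((r v / r s) • s)]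
  refine Submodule.add_mem_sup ((T.mem_vanishAt_iff hr hsurj).mpr ?_)
    (Submodule.mem_span_singleton.mpr ⟨_, rfl⟩)
  rw [map_sub, _root_.map_smul, smul_eq_mul, div_mul_cancel₀ _ hs, sub_self]

/-- Far enough twists have no first cohomology and a section not vanishing at a given point. -/
theorem exists_twist_nonvanishing (e : C.Pt) {r : T.M →ₗ[K] K}
    (hr : ∀ (a : C.A K) v, r (a • v) = C.evalR K e a * r v) (hsurj : Function.Surjective r) :
    ∃ m : ℕ, T.pR ⊔ Idx.mShift T m = ⊤ ∧ ∃ u ∈ T.pR ⊓ Idx.mShift T (m + 1), r u ≠ 0 := by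
  obtain ⟨n₀, hn₀⟩ := T.exists_twist_eq_top
  obtain ⟨u, hu⟩ := hsurj 1
  obtain ⟨a, ha⟩ := T.exists_pow_smul_mem_p u
  obtain ⟨b, hb⟩ := T.exists_pow_smul_mem_m (C.X₀ K ^ a • u)
  refine ⟨max n₀ b, hn₀ _ (le_max_left _ _), C.X₀ K ^ a • u, ⟨ha, ?_⟩, ?_⟩
  · exact monotone_nat_of_le_succ T.mShift_le_succ
      ((le_max_right n₀ b).trans (Nat.le_succ _)) ⟨_, hb, T.X_pow_smul_Y_pow_smul b _⟩
  · rw [hr, hu, mul_one, map_pow, Model.X₀, C.evalR_algebraMap_k]
    exact pow_ne_zero _ ((map_ne_zero (algebraMap k K)).mpr (C.pt_x₀_ne_zero e))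

end Triple

/-- The charts cover all triples of degree zero. -/
theorem Model.hasCoverage [IsAlgClosed k] (C : Model k) (e : C.Pt) : C.HasCoverage e := by
  intro K _ _ T hdeg
  have := C.infinite_pt
  choose r hr hsurj using T.exists_coordAt
  have hfin : ∀ v : T.M, v ≠ 0 → {P | r P v = 0}.Finite := fun v hv =>
    (T.finite_vanishAt hv).subset fun P hP => (T.mem_vanishAt_iff (hr P) (hsurj P)).mpr hP
  obtain ⟨m, htop, hu⟩ := T.exists_twist_nonvanishing e (hr e) (hsurj e)
  have htop' : T.pR ⊔ Idx.mShift T (m + 1) = ⊤ :=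
    top_le_iff.mp (htop.ge.trans (sup_le_sup_left (T.mShift_le_succ m) _))
  have hdim : ∀ n : ℕ, T.pR ⊔ Idx.mShift T n = ⊤ →
      (Module.finrank K ↥(T.pR ⊓ Idx.mShift T n) : ℤ) = C.chi₀ + C.d * n := by
    intro n hn
    have : Subsingleton (T.shift n).H1 := Submodule.Quotient.subsingleton_iff.mpr hn
    have h := T.deg_shift n
    rw [Triple.deg, chiOf, Module.finrank_zero_of_subsingleton (M := (T.shift n).H1), hdeg] at h
    simp only [Nat.cast_zero, sub_zero, zero_add] at h
    exact sub_eq_iff_eq_add'.mp h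
  have : FiniteDimensional K ↥(T.pR ⊓ Idx.mShift T (m + 1)) := (T.shift (m + 1)).finite_H0
  have h₀ := hdim m htop
  have h₁ := hdim (m + 1) htop'
  obtain ⟨Z, hZ, hdec, hW, hWe⟩ := Greedy.exists_cut r hfin e T.pR (Idx.mShift T m)
    (Idx.mShift T (m + 1)) (T.mShift_le_succ m) htop C.d_pos rfl
    (Nat.cast_injective (R := ℤ) (by push_cast at h₁ ⊢; linarith)) hu
  have : FiniteDimensional K
      ↥(Greedy.zerosAt r Z ⊓ (T.pR ⊓ Idx.mShift T (m + 1))) :=
    Submodule.finiteDimensional_of_le inf_le_right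
  obtain ⟨P, s, hP, hs, hbasis, hoff, hdiag, hse⟩ := Greedy.exists_dual r hfin e _ hW hWe
  let i : Idx C := ⟨m, Z.toList, P, hP, by rw [Finset.length_toList, hZ]; exact h₀⟩
  have hsub : i.sub T = Greedy.zerosAt r Z := by
    ext v
    rw [Idx.sub, Submodule.restrictScalars_mem, Greedy.mem_zerosAt,
      T.mem_prod_smul_top_iff hr hsurj (Finset.nodup_toList Z)]
    simp only [Finset.mem_toList]
  have hsec : i.sections T = Greedy.zerosAt r Z ⊓ (T.pR ⊓ Idx.mShift T (m + 1)) := by
    rw [Idx.sections, Idx.twistP, Idx.twistM, hsub, ← inf_inf_distrib_left]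
  refine ⟨i, ?_, s, ?_, ?_, fun j l hjl => ?_, fun j => ?_, fun j => ?_⟩
  · rw [Idx.twistP, Idx.twistM, hsub]
    exact hdec
  · rw [hsec]; exact hs
  · rw [hsec]; exact hbasis
  · exact (T.mem_vanishAt_iff (hr (P l)) (hsurj (P l))).mpr (hoff j l hjl)
  · exact T.vanishAt_sup_span_eq_top (hr (P j)) (hsurj (P j)) (hdiag j)
  · exact T.vanishAt_sup_span_eq_top (hr e) (hsurj e) (hse j)

end Fermat.Agent.RelPic
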