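import Fermat.Agent.RelPic.Point.DivMaps

/-!
# The divisor of a point, for abstract chart rings

The first chart is given as an injective image of a ring `S`; the point is given by an ideal `N` of
`S` with a complementary ideal `N'` such that `N * N' = (g)` and `j g = x - b`.
-/

set_option autoImplicit false

noncomputable section

universe u

open scoped TensorProduct Pointwise

namespace Fermat.Agent.RelPic

namespace DivData

variable {R A S : Type u} [CommRing R] [CommRing A] [Algebra R A] [CommRing S]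
  {Bp Bm : Subalgebra R A} {x y : A} (j : S →+* A)

/-- The divisor cut out by an ideal of the first chart. -/
def ofIdeal (N : Ideal S) : DivData Bp Bm :=
  ⟨Submodule.span A (j '' N), Submodule.span Bp (j '' N),
    (Submodule.span A (j '' N)).restrictScalars Bm ⊓ 1⟩

theorem span_image_mul {B : Type u} [CommRing B] [Algebra B A]
    (hj : ∀ s, ∃ b : B, algebraMap B A b = j s) {N N' : Ideal S} {g : S}
    (h : N * N' = Ideal.span {g}) :
    Submodule.span B (j '' N) * Submodule.span B (j '' N') = Submodule.span B {j g} := by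
  rw [Submodule.span_mul_span]
  refine le_antisymm (Submodule.span_le.mpr ?_) (Submodule.span_le.mpr ?_)
  · rintro _ ⟨_, ⟨n, hn, rfl⟩, _, ⟨n', hn', rfl⟩, rfl⟩
    have h2 : n * n' ∈ Ideal.span {g} := h ▸ Ideal.mul_mem_mul hn hn'
    obtain ⟨s, hs⟩ := Ideal.mem_span_singleton'.mp h2
    obtain ⟨b, hb⟩ := hj s
    refine Submodule.mem_span_singleton.mpr ⟨b, ?_⟩
    show b • j g = j n * j n'
    rw [← map_mul j n, ← hs, map_mul, Algebra.smul_def, hb]
  · have hg : g ∈ N * N' := h ▸ Ideal.subset_span rfl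
    have key : ∀ t ∈ N * N', j t ∈ Submodule.span B (j '' N * j '' N') := by
      intro t ht
      induction ht using Submodule.mul_induction_on' with
      | mem_mul_mem a ha b hb =>
        rw [map_mul]
        exact Submodule.subset_span (Set.mul_mem_mul ⟨a, ha, rfl⟩ ⟨b, hb, rfl⟩)
      | add a _ b _ ha hb => rw [map_add]; exact add_mem ha hb
    rintro _ rfl
    exact key g hg

theorem one_mem_of_mem {B : Subalgebra R A} {a : A} (ha : a ∈ B) : a ∈ (1 : Submodule B A) :=
  Submodule.mem_one.mpr ⟨⟨a, ha⟩, rfl⟩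

theorem mem_of_mem_one {B : Subalgebra R A} {a : A} (ha : a ∈ (1 : Submodule B A)) : a ∈ B := by
  obtain ⟨c, rfl⟩ := Submodule.mem_one.mp ha
  exact c.2

theorem mem_ofIdeal_m {N : Ideal S} {a : A} :
    a ∈ (ofIdeal j N : DivData Bp Bm).m ↔ a ∈ Submodule.span A (j '' N) ∧ a ∈ Bm :=
  ⟨fun h => ⟨h.1, mem_of_mem_one h.2⟩, fun h => ⟨h.1, one_mem_of_mem h.2⟩⟩

theorem jimage_mem {N : Ideal S} {n : S} (hn : n ∈ N) :
    j n ∈ (ofIdeal j N : DivData Bp Bm).J :=
  Submodule.subset_span ⟨n, hn, rfl⟩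

variable (hxy : IsChartPair Bp Bm x y) (hj : ∀ s, j s ∈ Bp)
include hxy hj

omit hxy in
theorem ofIdeal_le_p (N : Ideal S) : ∀ a ∈ (ofIdeal j N : DivData Bp Bm).p,
    a ∈ (ofIdeal j N : DivData Bp Bm).J := by
  intro a ha
  induction ha using Submodule.span_induction with
  | mem a ha => exact Submodule.subset_span ha
  | zero => exact zero_mem _
  | add a b _ _ ha hb => exact add_mem ha hb
  | smul c a _ ha => exact Submodule.smul_mem _ (c : A) ha

omit hj in
theorem ofIdeal_pow_p (N : Ideal S) : ∀ a ∈ (ofIdeal j N : DivData Bp Bm).J,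
    ∃ n : ℕ, x ^ n * a ∈ (ofIdeal j N : DivData Bp Bm).p := by
  intro a ha
  induction ha using Submodule.span_induction with
  | mem a ha => exact ⟨0, by rw [pow_zero, one_mul]; exact Submodule.subset_span ha⟩
  | zero => exact ⟨0, by rw [mul_zero]; exact zero_mem _⟩
  | add a b _ _ ha hb =>
    obtain ⟨n, hn⟩ := ha
    obtain ⟨n', hn'⟩ := hb
    refine ⟨n + n', ?_⟩
    rw [mul_add]
    refine add_mem ?_ ?_
    · rw [add_comm, pow_add, mul_assoc]; exact mul_mem_of_mem _ (pow_mem hxy.mem_x n') hn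
    · rw [pow_add, mul_assoc]; exact mul_mem_of_mem _ (pow_mem hxy.mem_x n) hn'
  | smul c a _ ha =>
    obtain ⟨n, hn⟩ := hxy.pow_x c
    obtain ⟨n', hn'⟩ := ha
    refine ⟨n + n', ?_⟩
    rw [smul_eq_mul, pow_add, mul_mul_mul_comm]
    exact mul_mem_of_mem _ hn hn'

omit hj in
theorem ofIdeal_pow_m (N : Ideal S) : ∀ a ∈ (ofIdeal j N : DivData Bp Bm).J,
    ∃ n : ℕ, y ^ n * a ∈ (ofIdeal j N : DivData Bp Bm).m := by
  intro a ha
  obtain ⟨n, hn⟩ := hxy.pow_y a
  exact ⟨n, (mem_ofIdeal_m j).mpr ⟨Submodule.smul_mem _ (y ^ n) ha, hn⟩⟩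

variable {N N' : Ideal S} {g : S} {b : R}

omit hj in
theorem one_sub_eq (hg : j g = x - algebraMap R A b) :
    1 - algebraMap R A b * y = y * j g := by
  rw [hg, mul_sub, mul_comm y x, hxy.mul_eq_one, mul_comm y]

omit hj in
theorem one_sub_mem (hg : j g = x - algebraMap R A b) (hN : g ∈ N) :
    1 - algebraMap R A b * y ∈ (ofIdeal j N : DivData Bp Bm).m := by
  refine (mem_ofIdeal_m j).mpr ⟨?_, ?_⟩
  · rw [one_sub_eq j hxy hg]
    exact Submodule.smul_mem (Submodule.span A (j '' N)) y (jimage_mem (Bp := Bp) (Bm := Bm) j hN)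
  · exact Bm.sub_mem Bm.one_mem (Bm.mul_mem (Bm.algebraMap_mem b) hxy.mem_y)

theorem ofIdeal_p_mul (h : N * N' = Ideal.span {g}) :
    (ofIdeal j N : DivData Bp Bm).p * (ofIdeal j N' : DivData Bp Bm).p = Submodule.span Bp {j g} :=
  span_image_mul j (fun s => ⟨⟨j s, hj s⟩, rfl⟩) h

omit hxy hj in
theorem ofIdeal_J_mul (h : N * N' = Ideal.span {g}) :
    (ofIdeal j N : DivData Bp Bm).J * (ofIdeal j N' : DivData Bp Bm).J = Submodule.span A {j g} :=
  span_image_mul j (fun s => ⟨j s, rfl⟩) h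

omit hj in
theorem ofIdeal_m_mul (h : N * N' = Ideal.span {g}) (hg : j g = x - algebraMap R A b)
    (hN : g ∈ N) (hN' : g ∈ N') :
    (ofIdeal j N : DivData Bp Bm).m * (ofIdeal j N' : DivData Bp Bm).m =
      Submodule.span Bm {1 - algebraMap R A b * y} := by
  set f := 1 - algebraMap R A b * y with hf
  have hfB : f ∈ Bm := Bm.sub_mem Bm.one_mem (Bm.mul_mem (Bm.algebraMap_mem b) hxy.mem_y)
  have hby : algebraMap R A b * y ∈ Bm := Bm.mul_mem (Bm.algebraMap_mem b) hxy.mem_y
  have hgeom : ∀ n, ∑ i ∈ Finset.range n, (algebraMap R A b * y) ^ i ∈ Bm :=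
    fun n => Bm.sum_mem fun i _ => Bm.pow_mem hby i
  refine le_antisymm (Submodule.mul_le.mpr fun a ha c hc => ?_) ((Submodule.span_le).mpr ?_)
  · obtain ⟨ha1, ha2⟩ := (mem_ofIdeal_m j).mp ha
    obtain ⟨hc1, hc2⟩ := (mem_ofIdeal_m j).mp hc
    have h1 : a * c ∈ Submodule.span A {j g} :=
      (ofIdeal_J_mul (Bp := Bp) (Bm := Bm) j h) ▸ Submodule.mul_mem_mul ha1 hc1
    obtain ⟨t, ht⟩ := Submodule.mem_span_singleton.mp h1
    have htf : a * c = t * x * f := by
      rw [← ht, hf, one_sub_eq j hxy hg, smul_eq_mul, show t * x * (y * j g) = t * (x * y) * j g by ring,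
        hxy.mul_eq_one, mul_one]
    obtain ⟨n, hn⟩ := hxy.pow_y (t * x)
    have htB : t * x ∈ Bm := by
      have e : t * x = (∑ i ∈ Finset.range n, (algebraMap R A b * y) ^ i) * (t * x * f) +
          algebraMap R A b ^ n * (y ^ n * (t * x)) := by
        rw [show (∑ i ∈ Finset.range n, (algebraMap R A b * y) ^ i) * (t * x * f) =
          (t * x) * ((∑ i ∈ Finset.range n, (algebraMap R A b * y) ^ i) * f) by ring, hf,
          geom_sum_mul_neg, mul_pow]
        ring
      rw [e]
      exact Bm.add_mem (Bm.mul_mem (hgeom n) (htf ▸ Bm.mul_mem ha2 hc2))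
        (Bm.mul_mem (Bm.pow_mem (Bm.algebraMap_mem b) n) hn)
    exact Submodule.mem_span_singleton.mpr ⟨⟨_, htB⟩, htf.symm⟩
  · rintro _ rfl
    have hff : f * f ∈ (ofIdeal j N : DivData Bp Bm).m * (ofIdeal j N' : DivData Bp Bm).m :=
      Submodule.mul_mem_mul (one_sub_mem j hxy hg hN) (one_sub_mem j hxy hg hN')
    have hgJ : j g ∈ (ofIdeal j N : DivData Bp Bm).J * (ofIdeal j N' : DivData Bp Bm).J := by
      rw [ofIdeal_J_mul (Bp := Bp) (Bm := Bm) j h]; exact Submodule.subset_span rfl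
    obtain ⟨n, hn⟩ := pow_mul_mem_mul hxy.mem_y (ofIdeal_pow_m (Bp := Bp) j hxy N)
      (ofIdeal_pow_m (Bp := Bp) j hxy N') hgJ
    have hn' : y ^ n * f ∈ (ofIdeal j N : DivData Bp Bm).m * (ofIdeal j N' : DivData Bp Bm).m := by
      rw [hf, one_sub_eq j hxy hg, mul_left_comm]
      exact mul_mem_of_mem _ hxy.mem_y hn
    have e : f = (∑ i ∈ Finset.range n, (algebraMap R A b * y) ^ i) * (f * f) +
        algebraMap R A b ^ n * (y ^ n * f) := by
      rw [← mul_assoc _ f f, hf, geom_sum_mul_neg, mul_pow]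
      ring
    show f ∈ (ofIdeal j N : DivData Bp Bm).m * (ofIdeal j N' : DivData Bp Bm).m
    rw [e]
    exact add_mem (mul_mem_of_mem _ (hgeom n) hff)
      (mul_mem_of_mem _ (Bm.pow_mem (Bm.algebraMap_mem b) n) hn')

theorem ofIdeal_good (h : N * N' = Ideal.span {g}) (hg : j g = x - algebraMap R A b)
    (hN : g ∈ N) (hN' : g ∈ N') (hreg : IsRegular (j g)) :
    (ofIdeal j N : DivData Bp Bm).Good x y where
  le_p := ofIdeal_le_p j hj N
  le_m a ha := ((mem_ofIdeal_m j).mp ha).1
  pow_p := ofIdeal_pow_p j hxy N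
  pow_m := ofIdeal_pow_m j hxy N
  partner_p := ⟨_, _, hreg, ofIdeal_p_mul j hxy hj h⟩
  partner_m := ⟨_, _, by
    rw [one_sub_eq j hxy hg]; exact hxy.isUnit_y.isRegular.mul hreg,
    ofIdeal_m_mul j hxy h hg hN hN'⟩

/-- The inverse of the divisor of a point. -/
theorem ofIdeal_mul_inverse (h : N * N' = Ideal.span {g}) (hg : j g = x - algebraMap R A b)
    (hN : g ∈ N) (hN' : g ∈ N') :
    (ofIdeal j N * (ofIdeal j N' * shift 1 x) : DivData Bp Bm) = princ (j g) := by
  rw [← mul_assoc]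
  refine ext' ?_ ?_ ?_
  · rw [mul_J, mul_J, ofIdeal_J_mul j h]
    exact mul_one _
  · rw [mul_p, mul_p, ofIdeal_p_mul j hxy hj h]
    simp [shift, princ, Submodule.span_mul_span]
  · rw [mul_m, mul_m, ofIdeal_m_mul j hxy h hg hN hN']
    simp only [shift, princ, Submodule.span_mul_span, Set.singleton_mul_singleton]
    rw [one_sub_eq j hxy hg, mul_comm y, mul_assoc, mul_comm y x, hxy.mul_eq_one, mul_one]

section Base

variable {R' A' S' : Type u} [CommRing R'] [CommRing A'] [Algebra R' A'] [CommRing S']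
  {Bp' Bm' : Subalgebra R' A'} {x' y' : A'} {j' : S' →+* A'} {h : A →+* A'} {hS : S →+* S'}
  {φ : R → R'}

omit hxy hj in
theorem mul_mem_span_image {P Q : Set A} {c z : A'} (hQP : ∀ q ∈ Q, ∀ a ∈ P, q * a ∈ P)
    (hc : c ∈ Submodule.span R' (h '' Q)) (hz : z ∈ Submodule.span R' (h '' P)) :
    c * z ∈ Submodule.span R' (h '' P) := by
  induction hc using Submodule.span_induction with
  | mem c hc =>
    obtain ⟨q, hq, rfl⟩ := hc
    induction hz using Submodule.span_induction with
    | mem z hz =>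
      obtain ⟨a, ha, rfl⟩ := hz
      exact Submodule.subset_span ⟨q * a, hQP q hq a ha, map_mul h q a⟩
    | zero => simp
    | add a a' _ _ ha ha' => rw [mul_add]; exact add_mem ha ha'
    | smul r a _ ha => rw [mul_smul_comm]; exact Submodule.smul_mem _ r ha
  | zero => simp
  | add a a' _ _ ha ha' => rw [add_mul]; exact add_mem ha ha'
  | smul r a _ ha => rw [smul_mul_assoc]; exact Submodule.smul_mem _ r ha

variable (hxy' : IsChartPair Bp' Bm' x' y') (hhj : ∀ s, h (j s) = j' (hS s))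
  (hj' : ∀ s, j' s ∈ Submodule.span R' (h '' Bp)) (hBm : ∀ a ∈ Bm, h a ∈ Bm')
  (hsp : ∀ a ∈ Bp', a ∈ Submodule.span R' (h '' Bp))
  (hsm : ∀ a ∈ Bm', a ∈ Submodule.span R' (h '' Bm))
  (hsA : ∀ a : A', a ∈ Submodule.span R' (h '' Set.univ)) (hBp : ∀ a ∈ Bp, h a ∈ Bp')
  (halg : ∀ r, h (algebraMap R A r) = algebraMap R' A' (φ r)) (hy : h y = y')
include hxy' hhj hj' hBm hsp hsm hsA hBp halg hy

/-- The divisors of a point before and after a change of base correspond. -/
theorem ofIdeal_maps (hg : j g = x - algebraMap R A b) (hN : g ∈ N) :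
    Maps h (ofIdeal j N : DivData Bp Bm) (ofIdeal j' (N.map hS) : DivData Bp' Bm') := by
  have himg : ∀ {P : Set A}, (∀ q ∈ Bp, ∀ a ∈ P, q * a ∈ P) → (∀ n ∈ N, j n ∈ P) →
      ∀ t ∈ N.map hS, j' t ∈ Submodule.span R' (h '' P) := by
    intro P hP hNP t ht
    induction ht using Submodule.span_induction with
    | mem t ht =>
      obtain ⟨n, hn, rfl⟩ := ht
      rw [← hhj]
      exact Submodule.subset_span ⟨j n, hNP n hn, rfl⟩
    | zero => simp
    | add a a' _ _ ha ha' => rw [map_add]; exact add_mem ha ha'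
    | smul c a _ ha => rw [smul_eq_mul, map_mul]; exact mul_mem_span_image hP (hj' c) ha
  have hmapJ : ∀ a ∈ (ofIdeal j N : DivData Bp Bm).J,
      h a ∈ (ofIdeal j' (N.map hS) : DivData Bp' Bm').J := by
    intro a ha
    induction ha using Submodule.span_induction with
    | mem a ha =>
      obtain ⟨n, hn, rfl⟩ := ha
      rw [hhj]; exact jimage_mem j' (Ideal.mem_map_of_mem hS hn)
    | zero => rw [map_zero]; exact zero_mem _
    | add a a' _ _ ha ha' => rw [map_add]; exact add_mem ha ha'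
    | smul c a _ ha => rw [smul_eq_mul, map_mul]; exact Submodule.smul_mem _ (h c) ha
  have hspanJ : ∀ a ∈ (ofIdeal j' (N.map hS) : DivData Bp' Bm').J,
      a ∈ Submodule.span R' (h '' (ofIdeal j N : DivData Bp Bm).J) := by
    intro a ha
    induction ha using Submodule.span_induction with
    | mem a ha =>
      obtain ⟨t, ht, rfl⟩ := ha
      exact himg (fun q _ z hz => Submodule.smul_mem _ q hz) (fun n hn => jimage_mem j hn) t ht
    | zero => exact zero_mem _
    | add a a' _ _ ha ha' => exact add_mem ha ha'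
    | smul c a _ ha =>
      exact mul_mem_span_image (fun q _ z hz => Submodule.smul_mem _ q hz) (hsA c) ha
  refine ⟨hmapJ, fun a ha => ?_, fun a ha => ?_, fun a ha => ?_, fun a ha => ?_⟩
  · induction ha using Submodule.span_induction with
    | mem a ha =>
      obtain ⟨n, hn, rfl⟩ := ha
      rw [hhj]; exact Submodule.subset_span ⟨_, Ideal.mem_map_of_mem hS hn, rfl⟩
    | zero => rw [map_zero]; exact zero_mem _
    | add a a' _ _ ha ha' => rw [map_add]; exact add_mem ha ha'
    | smul c a _ ha =>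
      rw [show c • a = (c : A) * a from rfl, map_mul]
      exact mul_mem_of_mem _ (hBp c c.2) ha
  · obtain ⟨h1, h2⟩ := (mem_ofIdeal_m j).mp ha
    exact (mem_ofIdeal_m j').mpr ⟨hmapJ a h1, hBm a h2⟩
  · induction ha using Submodule.span_induction with
    | mem a ha =>
      obtain ⟨t, ht, rfl⟩ := ha
      exact himg (P := ((ofIdeal j N : DivData Bp Bm).p : Set A))
        (fun q hq z hz => mul_mem_of_mem (ofIdeal j N : DivData Bp Bm).p hq hz)
        (fun n hn => Submodule.subset_span (Set.mem_image_of_mem j hn)) t ht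
    | zero => exact zero_mem _
    | add a a' _ _ ha ha' => exact add_mem ha ha'
    | smul c a _ ha =>
      exact mul_mem_span_image (fun q hq z hz => mul_mem_of_mem _ hq hz) (hsp c c.2) ha
  · obtain ⟨h1, h2⟩ := (mem_ofIdeal_m j').mp ha
    set P : Set A := ((ofIdeal j N : DivData Bp Bm).m : Set A) with hP
    have hclosed : ∀ q ∈ Bm, ∀ z ∈ P, q * z ∈ P := fun q hq z hz => mul_mem_of_mem _ hq hz
    have hpow : ∀ z ∈ Submodule.span R' (h '' (ofIdeal j N : DivData Bp Bm).J),
        ∃ n : ℕ, y' ^ n * z ∈ Submodule.span R' (h '' P) := by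
      intro z hz
      induction hz using Submodule.span_induction with
      | mem z hz =>
        obtain ⟨c, hc, rfl⟩ := hz
        obtain ⟨n, hn⟩ := ofIdeal_pow_m (Bp := Bp) j hxy N c hc
        exact ⟨n, Submodule.subset_span ⟨_, hn, by rw [map_mul, map_pow, hy]⟩⟩
      | zero => exact ⟨0, by simp⟩
      | add c d _ _ hc hd =>
        obtain ⟨n, hn⟩ := hc
        obtain ⟨n', hn'⟩ := hd
        have hyn : ∀ i : ℕ, y' ^ i ∈ Submodule.span R' (h '' (Bm : Set A)) :=
          fun i => hsm _ (Bm'.pow_mem hxy'.mem_y i)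
        refine ⟨n + n', ?_⟩
        rw [mul_add]
        refine add_mem ?_ ?_
        · rw [add_comm, pow_add, mul_assoc]; exact mul_mem_span_image hclosed (hyn n') hn
        · rw [pow_add, mul_assoc]; exact mul_mem_span_image hclosed (hyn n) hn'
      | smul r c _ hc =>
        obtain ⟨n, hn⟩ := hc
        exact ⟨n, by rw [mul_smul_comm]; exact Submodule.smul_mem _ r hn⟩
    obtain ⟨n, hn⟩ := hpow a (hspanJ a h1)
    have hf : (1 - algebraMap R' A' (φ b) * y') * a ∈ Submodule.span R' (h '' P) := by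
      rw [mul_comm]
      refine mul_mem_span_image hclosed (hsm a h2)
        (Submodule.subset_span ⟨_, one_sub_mem j hxy hg hN, ?_⟩)
      rw [map_sub, map_one, map_mul, halg, hy]
    have hby : algebraMap R' A' (φ b) * y' ∈ Bm' :=
      Bm'.mul_mem (Bm'.algebraMap_mem _) hxy'.mem_y
    have e : a = (∑ i ∈ Finset.range n, (algebraMap R' A' (φ b) * y') ^ i) *
        ((1 - algebraMap R' A' (φ b) * y') * a) + algebraMap R' A' (φ b) ^ n * (y' ^ n * a) := by
      rw [← mul_assoc, geom_sum_mul_neg, mul_pow]; ring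
    rw [e]
    exact add_mem
      (mul_mem_span_image hclosed (hsm _ (Bm'.sum_mem fun i _ => Bm'.pow_mem hby i)) hf)
      (mul_mem_span_image hclosed (hsm _ (Bm'.pow_mem (Bm'.algebraMap_mem _) n)) hn)

end Base

end DivData

end Fermat.Agent.RelPic
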