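import Fermat.Agent.RelPic.Complex.Equiv
import Fermat.Agent.RelPic.Point.PointCore
import Fermat.Agent.RelPic.Point.Basics

/-!
# Twisting triples by divisors
-/

set_option autoImplicit false

noncomputable section

universe u

open scoped TensorProduct Pointwise

namespace Fermat.Agent.RelPic

-- dead ends of the instance search in this file
attribute [-instance] Submodule.normedAddCommGroup Submodule.seminormedAddCommGroup
  SetLike.GradeZero.instRing NormedAlgebra.toAlgebra

variable {k : Type u} [Field k] {C : Model k} {R : Type u} [CommRing R] [Algebra k R]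

namespace Model

theorem isChartPair (C : Model k) (R : Type u) [CommRing R] [Algebra k R] :
    IsChartPair (C.Cp R) (C.Cm R) (C.X₀ R) (C.Y₀ R) :=
  ⟨C.X₀_mul_Y₀ R, C.X₀_mem_Cp R, C.Y₀_mem_Cm R, C.exists_pow_mul_mem_Cp R,
    C.exists_pow_mul_mem_Cm R⟩

end Model

/-- Divisor data on a model over a base ring. -/
abbrev Div (C : Model k) (R : Type u) [CommRing R] [Algebra k R] : Type u :=
  DivData (C.Cp R) (C.Cm R)

/-- Divisor data that twist triples into triples. -/
abbrev Div.IsGood (D : Div C R) : Prop := DivData.Good (C.X₀ R) (C.Y₀ R) D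

namespace Div

theorem IsGood.mul {D E : Div C R} (hD : D.IsGood) (hE : E.IsGood) : IsGood (D * E) :=
  DivData.Good.mul (C.isChartPair R) hD hE

theorem isGood_one : IsGood (1 : Div C R) := DivData.good_one (C.isChartPair R)

/-- The overlap module of a twist. -/
abbrev actN (D : Div C R) (T : Triple C R) : Submodule (C.A R) T.M :=
  D.J • (⊤ : Submodule (C.A R) T.M)

/-- The twist of a triple by a divisor. -/
abbrev act (D : Div C R) (h : D.IsGood) (T : Triple C R) : Triple C R where
  M := ↥(actN D T)
  instAdd := (actN D T).addCommGroup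
  instModA := (actN D T).module
  instModR := (actN D T).module'
  p := (DivData.restrictLat (actN D T) (D.p • T.p) :)
  m := (DivData.restrictLat (actN D T) (D.m • T.m) :)
  inv_p := (h.invertible_smul_p (C.isChartPair R) T.p T.inv_p :)
  inv_m := (h.invertible_smul_m (C.isChartPair R) T.m T.inv_m :)
  exists_pow_smul_mem_p v :=
    DivData.pow_smul_mem_smul (C.X₀_mem_Cp R) h.pow_p T.exists_pow_smul_mem_p v.2
  exists_pow_smul_mem_m v :=
    DivData.pow_smul_mem_smul (C.Y₀_mem_Cm R) h.pow_m T.exists_pow_smul_mem_m v.2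

theorem mem_act_p {D : Div C R} (h : D.IsGood) (T : Triple C R) (v : actN D T) :
    v ∈ (act D h T).p ↔ (v : T.M) ∈ D.p • T.p := Iff.rfl

theorem mem_act_m {D : Div C R} (h : D.IsGood) (T : Triple C R) (v : actN D T) :
    v ∈ (act D h T).m ↔ (v : T.M) ∈ D.m • T.m := Iff.rfl

theorem IsGood.smul_p_le {D : Div C R} (h : D.IsGood) (T : Triple C R) :
    ∀ v ∈ D.p • T.p, v ∈ actN D T := fun _ hv => DivData.smul_le_smul_top h.le_p hv

theorem IsGood.smul_m_le {D : Div C R} (h : D.IsGood) (T : Triple C R) :
    ∀ v ∈ D.m • T.m, v ∈ actN D T := fun _ hv => DivData.smul_le_smul_top h.le_m hv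

/-- An injective map between ambient modules that identifies two twists. -/
def equivOfMap {D D' : Div C R} (hD : D.IsGood) (hD' : D'.IsGood) {T T' : Triple C R}
    (f : T.M →ₗ[C.A R] T'.M) (hf : Function.Injective f)
    (hN : (actN D T).map f = actN D' T')
    (hp : DivData.mapLat f (D.p • T.p) = D'.p • T'.p)
    (hm : DivData.mapLat f (D.m • T.m) = D'.m • T'.m) :
    Triple.Equiv (act D hD T) (act D' hD' T') where
  toEquiv := DivData.restrictEquiv f hf _ _ hN
  mem_p v := DivData.restrictEquiv_mem f hf _ _ hN _ _ hp v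
  mem_m v := DivData.restrictEquiv_mem f hf _ _ hN _ _ hm v

theorem mapLat_equiv_p {T T' : Triple C R} (e : Triple.Equiv T T') :
    DivData.mapLat e.toEquiv.toLinearMap T.p = T'.p := by
  ext w
  exact ⟨fun ⟨v, hv, hw⟩ => hw ▸ (e.mem_p v).mp hv,
    fun hw => ⟨e.toEquiv.symm w, (e.symm.mem_p w).mp hw, e.toEquiv.apply_symm_apply w⟩⟩

theorem mapLat_equiv_m {T T' : Triple C R} (e : Triple.Equiv T T') :
    DivData.mapLat e.toEquiv.toLinearMap T.m = T'.m := by
  ext w
  exact ⟨fun ⟨v, hv, hw⟩ => hw ▸ (e.mem_m v).mp hv,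
    fun hw => ⟨e.toEquiv.symm w, (e.symm.mem_m w).mp hw, e.toEquiv.apply_symm_apply w⟩⟩

/-- Twists of isomorphic triples are isomorphic. -/
def actCongr {D : Div C R} (h : D.IsGood) {T T' : Triple C R} (e : Triple.Equiv T T') :
    Triple.Equiv (act D h T) (act D h T') :=
  equivOfMap h h e.toEquiv.toLinearMap e.toEquiv.injective
    (by rw [actN, DivData.map_smul_top, Submodule.map_top, LinearEquiv.range])
    (by rw [DivData.mapLat_smul, mapLat_equiv_p])
    (by rw [DivData.mapLat_smul, mapLat_equiv_m])

/-- Twists by equal data. -/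
def actEq {D D' : Div C R} (h : D.IsGood) (h' : D'.IsGood) (e : D = D') (T : Triple C R) :
    Triple.Equiv (act D h T) (act D' h' T) := by
  subst e; exact Triple.Equiv.refl _

/-- The trivial twist. -/
def actOne (h : IsGood (1 : Div C R)) (T : Triple C R) : Triple.Equiv (act 1 h T) T :=
  have hN : actN (1 : Div C R) T = ⊤ := by
    rw [actN, DivData.one_J]; exact Submodule.one_smul _
  { toEquiv := (LinearEquiv.ofEq _ _ hN).trans Submodule.topEquiv
    mem_p := fun v => by
      rw [mem_act_p, DivData.one_p, DivData.one_smul_lat]; rfl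
    mem_m := fun v => by
      rw [mem_act_m, DivData.one_m, DivData.one_smul_lat]; rfl }

/-- Twisting twice is twisting by the product. -/
def actMul {D E : Div C R} (hD : D.IsGood) (hE : E.IsGood) (hDE : IsGood (D * E))
    (T : Triple C R) : Triple.Equiv (act D hD (act E hE T)) (act (D * E) hDE T) :=
  equivOfMap hD hDE (actN E T).subtype (actN E T).subtype_injective
    (by
      rw [DivData.map_smul_top, Submodule.map_top, Submodule.range_subtype]
      exact (Submodule.smul_assoc D.J E.J ⊤).symm)
    (by
      rw [DivData.mapLat_smul, DivData.mul_p, DivData.mul_smul_lat]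
      exact congrArg (D.p • ·) (DivData.mapLat_restrictLat _ _ (hE.smul_p_le T)))
    (by
      rw [DivData.mapLat_smul, DivData.mul_m, DivData.mul_smul_lat]
      exact congrArg (D.m • ·) (DivData.mapLat_restrictLat _ _ (hE.smul_m_le T)))

theorem smul_left_injective_of_isRegular (T : Triple C R) {g : C.A R} (hg : IsRegular g) :
    Function.Injective (LinearMap.lsmul (C.A R) T.M g) := by
  have := T.invertible
  refine (injective_iff_map_eq_zero _).mpr fun v hv => by_contra fun hne => ?_
  obtain ⟨f, hf⟩ := exists_dual_ne_zero (A := C.A R) hne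
  refine hf (hg.left ?_)
  have h := congrArg f hv
  rw [LinearMap.lsmul_apply, map_smul, map_zero] at h
  exact h.trans (mul_zero g).symm

/-- A principal factor does not change a twist. -/
def actPrincMul {g : C.A R} (hg : IsRegular g) {D : Div C R} (hD : D.IsGood)
    (h : IsGood (DivData.princ g * D)) (T : Triple C R) :
    Triple.Equiv (act D hD T) (act (DivData.princ g * D) h T) :=
  equivOfMap hD h (LinearMap.lsmul (C.A R) T.M g) (smul_left_injective_of_isRegular T hg)
    (by rw [actN, DivData.map_lsmul]; exact (Submodule.smul_assoc _ D.J ⊤).symm)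
    (by rw [DivData.mapLat_lsmul, ← DivData.mul_smul_lat]; rfl)
    (by rw [DivData.mapLat_lsmul, ← DivData.mul_smul_lat]; rfl)

/-- Twisting by `D` and then by an inverse of `D` gives the triple back. -/
theorem nonempty_equiv_act_inverse {D D' : Div C R} (hD : D.IsGood) (hD' : D'.IsGood) {g : C.A R}
    (hg : IsRegular g) (e : D' * D = DivData.princ g) (T : Triple C R) :
    Nonempty (Triple.Equiv T (act D' hD' (act D hD T))) := by
  have hg' : IsGood (DivData.princ g * 1 : Div C R) := by
    rw [mul_one, ← e]; exact hD'.mul hD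
  exact ⟨(((actOne isGood_one T).symm.trans (actPrincMul hg isGood_one hg' T)).trans
    (actEq hg' (hD'.mul hD) (by rw [mul_one, e]) T)).trans (actMul hD' hD (hD'.mul hD) T).symm⟩

/-- Two inverses of the same divisor give the same twist. -/
theorem nonempty_equiv_of_mul_eq_princ {D D₁ D₂ : Div C R} (hD : D.IsGood) (h₁ : D₁.IsGood)
    (h₂ : D₂.IsGood) {g₁ g₂ : C.A R} (hg₁ : IsRegular g₁) (hg₂ : IsRegular g₂)
    (e₁ : D * D₁ = DivData.princ g₁) (e₂ : D * D₂ = DivData.princ g₂) (T : Triple C R) :
    Nonempty (Triple.Equiv (act D₁ h₁ T) (act D₂ h₂ T)) := by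
  have e : DivData.princ g₂ * D₁ = DivData.princ g₁ * D₂ := by
    rw [← e₁, ← e₂, mul_right_comm]
  have hG : IsGood (DivData.princ g₂ * D₁) := e₂ ▸ (hD.mul h₂).mul h₁
  exact ⟨((actPrincMul hg₂ h₁ hG T).trans (actEq hG (e ▸ hG) e T)).trans
    (actPrincMul hg₁ h₂ (e ▸ hG) T).symm⟩

variable {R' : Type u} [CommRing R'] [Algebra k R'] {φ : R →ₐ[k] R'}

/-- The twist of a base change by a base-changed divisor. -/
def bcAct {D : Div C R} {D' : Div C R'} (hD : D.IsGood) (hD' : D'.IsGood)
    (hM : DivData.Maps (C.mapA φ).toRingHom D D') {T : Triple C R} {T' : Triple C R'}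
    (F : Triple.BC φ T T') : Triple.BC φ (act D hD T) (act D' hD' T') :=
  let g : actN D T →+ actN D' T' :=
    (F.toFun.comp (actN D T).subtype.toAddMonoidHom).codRestrict (actN D' T')
      fun v => DivData.map_mem_smul_top F.map_smul hM.map_J v.2
  { toFun := g
    map_smul := fun a v => Subtype.ext (F.map_smul a v)
    map_p := fun _v hv => DivData.map_mem_smul F.map_smul hM.map_p F.map_p hv
    map_m := fun _v hv => DivData.map_mem_smul F.map_smul hM.map_m F.map_m hv
    span_p := fun _ hw => DivData.span_image_restrictLat g (fun _ => rfl) _ (hD.smul_p_le T) _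
      (fun _ hv => DivData.mem_span_image_smul F.map_smul hM.span_p (fun _ hu => F.span_p hu) hv) hw
    span_m := fun _ hw => DivData.span_image_restrictLat g (fun _ => rfl) _ (hD.smul_m_le T) _
      (fun _ hv => DivData.mem_span_image_smul F.map_smul hM.span_m (fun _ hu => F.span_m hu) hv) hw }

end Div

end Fermat.Agent.RelPic
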