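import Fermat.Agent.RelPic.Point.Lattice

/-!
# Divisors for two subalgebras of a ring and their action on modules

All of this is stated for an abstract algebra, so that it is cheap to elaborate; it is applied to the
two charts of a model over a base ring.
-/

set_option autoImplicit false

noncomputable section

universe u

open scoped TensorProduct Pointwise

namespace Fermat.Agent.RelPic

variable {R A : Type u} [CommRing R] [CommRing A] [Algebra R A] {Bp Bm : Subalgebra R A}

/-- The properties of the two charts that are used: `x` and `y` are inverse to each other and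
the ring is the localisation of each chart. -/
structure IsChartPair (Bp Bm : Subalgebra R A) (x y : A) : Prop where
  mul_eq_one : x * y = 1
  mem_x : x ∈ Bp
  mem_y : y ∈ Bm
  pow_x : ∀ a : A, ∃ n : ℕ, x ^ n * a ∈ Bp
  pow_y : ∀ a : A, ∃ n : ℕ, y ^ n * a ∈ Bm

namespace IsChartPair

variable {x y : A} (h : IsChartPair Bp Bm x y)
include h

theorem isUnit_x : IsUnit x := IsUnit.of_mul_eq_one _ h.mul_eq_one

theorem isUnit_y : IsUnit y := IsUnit.of_mul_eq_one _ (by rw [mul_comm]; exact h.mul_eq_one)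

theorem pow_mul_pow (n : ℕ) : x ^ n * y ^ n = 1 := by rw [← mul_pow, h.mul_eq_one, one_pow]

end IsChartPair

theorem invertible_of_mul_eq_span_sub {B : Subalgebra R A} {N N' : Submodule B A} {g : A}
    (hg : IsRegular g) (e : N * N' = Submodule.span B {g}) : Module.Invertible B N :=
  invertible_of_mul_eq_span hg e

theorem smul_mem_of_mem {B : Subalgebra R A} {M : Type u} [AddCommGroup M] [Module A M]
    (q : Submodule B M) {a : A} (ha : a ∈ B) {v : M} (hv : v ∈ q) : a • v ∈ q :=
  q.smul_mem ⟨a, ha⟩ hv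

theorem mul_mem_of_mem {B : Subalgebra R A} (q : Submodule B A) {a : A} (ha : a ∈ B) {v : A}
    (hv : v ∈ q) : a * v ∈ q :=
  q.smul_mem ⟨a, ha⟩ hv

theorem invertible_smul_sub {B : Subalgebra R A} {M : Type u} [AddCommGroup M] [Module A M] {x : A}
    (hx : x ∈ B) (hu : IsUnit x) (hpow : ∀ a : A, ∃ n : ℕ, x ^ n * a ∈ B) (N : Submodule B A)
    (q : Submodule B M) (hN : Module.Invertible B N) (hq : Module.Invertible B q) :
    Module.Invertible B ↥(N • q) :=
  invertible_smul (X := (⟨x, hx⟩ : B)) hu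
    (fun a => let ⟨n, hn⟩ := hpow a; ⟨n, ⟨_, hn⟩, rfl⟩) N q

/-- Data of a divisor: an ideal of the overlap and submodules for the two charts. -/
structure DivData (Bp Bm : Subalgebra R A) where
  J : Submodule A A
  p : Submodule Bp A
  m : Submodule Bm A

namespace DivData

theorem ext' {D D' : DivData Bp Bm} (hJ : D.J = D'.J) (hp : D.p = D'.p) (hm : D.m = D'.m) :
    D = D' := by
  cases D; cases D'; simp_all

instance : One (DivData Bp Bm) := ⟨⟨1, 1, 1⟩⟩
instance : Mul (DivData Bp Bm) := ⟨fun D D' => ⟨D.J * D'.J, D.p * D'.p, D.m * D'.m⟩⟩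

theorem one_J : (1 : DivData Bp Bm).J = 1 := rfl
theorem one_p : (1 : DivData Bp Bm).p = 1 := rfl
theorem one_m : (1 : DivData Bp Bm).m = 1 := rfl
theorem mul_J (D D' : DivData Bp Bm) : (D * D').J = D.J * D'.J := rfl
theorem mul_p (D D' : DivData Bp Bm) : (D * D').p = D.p * D'.p := rfl
theorem mul_m (D D' : DivData Bp Bm) : (D * D').m = D.m * D'.m := rfl

instance : CommMonoid (DivData Bp Bm) where
  mul_assoc a b c := ext' (mul_assoc a.J b.J c.J) (mul_assoc a.p b.p c.p) (mul_assoc a.m b.m c.m)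
  one_mul a := ext' (one_mul a.J) (one_mul a.p) (one_mul a.m)
  mul_one a := ext' (mul_one a.J) (mul_one a.p) (mul_one a.m)
  mul_comm a b := ext' (mul_comm a.J b.J) (mul_comm a.p b.p) (mul_comm a.m b.m)

/-- The multiples of one function. -/
def princ (g : A) : DivData Bp Bm :=
  ⟨Submodule.span A {g}, Submodule.span Bp {g}, Submodule.span Bm {g}⟩

/-- Unit ideal on the overlap, with prescribed generators on the two charts. -/
def shift (gp gm : A) : DivData Bp Bm := ⟨1, Submodule.span Bp {gp}, Submodule.span Bm {gm}⟩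

theorem shift_mul (a b a' b' : A) :
    (shift a b * shift a' b' : DivData Bp Bm) = shift (a * a') (b * b') :=
  ext' (one_mul _) (by simp [mul_p, shift, Submodule.span_mul_span])
    (by simp [mul_m, shift, Submodule.span_mul_span])

theorem shift_one : (shift 1 1 : DivData Bp Bm) = 1 := by
  refine ext' rfl ?_ ?_ <;> simp [shift, one_p, one_m, Submodule.one_eq_span]

theorem princ_mul (g g' : A) : (princ g * princ g' : DivData Bp Bm) = princ (g * g') := by
  refine ext' ?_ ?_ ?_ <;> simp [mul_J, mul_p, mul_m, princ, Submodule.span_mul_span]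

theorem mem_one_J (a : A) : a ∈ (1 : Submodule A A) := by
  rw [Submodule.one_eq_range]; exact ⟨a, rfl⟩

/-- The conditions making the product with a triple a triple. -/
structure Good (x y : A) (D : DivData Bp Bm) : Prop where
  le_p : ∀ a ∈ D.p, a ∈ D.J
  le_m : ∀ a ∈ D.m, a ∈ D.J
  pow_p : ∀ a ∈ D.J, ∃ n : ℕ, x ^ n * a ∈ D.p
  pow_m : ∀ a ∈ D.J, ∃ n : ℕ, y ^ n * a ∈ D.m
  partner_p : ∃ (p' : Submodule Bp A) (g : A), IsRegular g ∧ D.p * p' = Submodule.span Bp {g}
  partner_m : ∃ (m' : Submodule Bm A) (g : A), IsRegular g ∧ D.m * m' = Submodule.span Bm {g}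

theorem pow_mul_mem_mul {B : Subalgebra R A} {x : A} (hx : x ∈ B) {J J' : Submodule A A}
    {p p' : Submodule B A} (h : ∀ a ∈ J, ∃ n : ℕ, x ^ n * a ∈ p)
    (h' : ∀ a ∈ J', ∃ n : ℕ, x ^ n * a ∈ p') {a : A} (ha : a ∈ J * J') :
    ∃ n : ℕ, x ^ n * a ∈ p * p' := by
  induction ha using Submodule.mul_induction_on' with
  | mem_mul_mem a ha b hb =>
    obtain ⟨n, hn⟩ := h a ha
    obtain ⟨n', hn'⟩ := h' b hb
    refine ⟨n + n', ?_⟩
    rw [pow_add, mul_mul_mul_comm]
    exact Submodule.mul_mem_mul hn hn'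
  | add a _ b _ ha hb =>
    obtain ⟨n, hn⟩ := ha
    obtain ⟨n', hn'⟩ := hb
    refine ⟨n + n', ?_⟩
    rw [mul_add]
    refine add_mem ?_ ?_
    · rw [add_comm, pow_add, mul_assoc]; exact mul_mem_of_mem _ (pow_mem hx n') hn
    · rw [pow_add, mul_assoc]; exact mul_mem_of_mem _ (pow_mem hx n) hn'

variable {x y : A}

theorem Good.mul {D D' : DivData Bp Bm} (hxy : IsChartPair Bp Bm x y) (h : D.Good x y)
    (h' : D'.Good x y) : (D * D').Good x y where
  le_p a ha := by
    induction ha using Submodule.mul_induction_on' with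
    | mem_mul_mem a ha b hb => exact Submodule.mul_mem_mul (h.le_p a ha) (h'.le_p b hb)
    | add a _ b _ ha hb => exact add_mem ha hb
  le_m a ha := by
    induction ha using Submodule.mul_induction_on' with
    | mem_mul_mem a ha b hb => exact Submodule.mul_mem_mul (h.le_m a ha) (h'.le_m b hb)
    | add a _ b _ ha hb => exact add_mem ha hb
  pow_p _ ha := pow_mul_mem_mul hxy.mem_x h.pow_p h'.pow_p ha
  pow_m _ ha := pow_mul_mem_mul hxy.mem_y h.pow_m h'.pow_m ha
  partner_p := by
    obtain ⟨p₁, g₁, hg₁, e₁⟩ := h.partner_p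
    obtain ⟨p₂, g₂, hg₂, e₂⟩ := h'.partner_p
    refine ⟨p₁ * p₂, g₁ * g₂, hg₁.mul hg₂, ?_⟩
    rw [show (D * D').p * (p₁ * p₂) = (D.p * p₁) * (D'.p * p₂) from mul_mul_mul_comm .., e₁, e₂,
      Submodule.span_mul_span, Set.singleton_mul_singleton]
  partner_m := by
    obtain ⟨p₁, g₁, hg₁, e₁⟩ := h.partner_m
    obtain ⟨p₂, g₂, hg₂, e₂⟩ := h'.partner_m
    refine ⟨p₁ * p₂, g₁ * g₂, hg₁.mul hg₂, ?_⟩
    rw [show (D * D').m * (p₁ * p₂) = (D.m * p₁) * (D'.m * p₂) from mul_mul_mul_comm .., e₁, e₂,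
      Submodule.span_mul_span, Set.singleton_mul_singleton]

theorem good_shift (hxy : IsChartPair Bp Bm x y) (a b : ℕ) :
    (shift (y ^ a) (x ^ b) : DivData Bp Bm).Good x y where
  le_p c _ := mem_one_J c
  le_m c _ := mem_one_J c
  pow_p c _ := by
    obtain ⟨n, hn⟩ := hxy.pow_x (x ^ a * c)
    refine ⟨n, Submodule.mem_span_singleton.mpr ⟨⟨_, hn⟩, ?_⟩⟩
    show x ^ n * (x ^ a * c) * y ^ a = x ^ n * c
    rw [show x ^ n * (x ^ a * c) * y ^ a = x ^ n * c * (x ^ a * y ^ a) by ring, hxy.pow_mul_pow,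
      mul_one]
  pow_m c _ := by
    obtain ⟨n, hn⟩ := hxy.pow_y (y ^ b * c)
    refine ⟨n, Submodule.mem_span_singleton.mpr ⟨⟨_, hn⟩, ?_⟩⟩
    show y ^ n * (y ^ b * c) * x ^ b = y ^ n * c
    rw [show y ^ n * (y ^ b * c) * x ^ b = y ^ n * c * (x ^ b * y ^ b) by ring, hxy.pow_mul_pow,
      mul_one]
  partner_p := ⟨1, y ^ a, (hxy.isUnit_y.pow a).isRegular, mul_one (Submodule.span Bp {y ^ a})⟩
  partner_m := ⟨1, x ^ b, (hxy.isUnit_x.pow b).isRegular, mul_one (Submodule.span Bm {x ^ b})⟩

theorem good_one (hxy : IsChartPair Bp Bm x y) : (1 : DivData Bp Bm).Good x y := by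
  simpa [shift_one] using good_shift hxy 0 0

theorem Good.invertible_p {D : DivData Bp Bm} (h : D.Good x y) : Module.Invertible Bp D.p := by
  obtain ⟨p', g, hg, e⟩ := h.partner_p
  exact invertible_of_mul_eq_span_sub hg e

theorem Good.invertible_m {D : DivData Bp Bm} (h : D.Good x y) : Module.Invertible Bm D.m := by
  obtain ⟨m', g, hg, e⟩ := h.partner_m
  exact invertible_of_mul_eq_span_sub hg e

/-! ### The action on modules -/

variable {M : Type u} [AddCommGroup M] [Module A M]

theorem pow_smul_mem_smul {B : Subalgebra R A} {x : A} (hx : x ∈ B) {J : Submodule A A}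
    {p : Submodule B A} {q : Submodule B M}
    (h : ∀ a ∈ J, ∃ n : ℕ, x ^ n * a ∈ p) (h' : ∀ v : M, ∃ n : ℕ, x ^ n • v ∈ q) {v : M}
    (hv : v ∈ J • (⊤ : Submodule A M)) : ∃ n : ℕ, x ^ n • v ∈ p • q := by
  induction hv using Submodule.smul_induction_on' with
  | smul a ha w _ =>
    obtain ⟨n, hn⟩ := h a ha
    obtain ⟨n', hn'⟩ := h' w
    refine ⟨n + n', ?_⟩
    rw [pow_add, mul_smul, smul_comm (x ^ n') a w, ← mul_smul]
    exact Submodule.smul_mem_smul hn hn'
  | add a _ b _ ha hb =>
    obtain ⟨n, hn⟩ := ha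
    obtain ⟨n', hn'⟩ := hb
    refine ⟨n + n', ?_⟩
    rw [smul_add]
    refine add_mem ?_ ?_
    · rw [add_comm, pow_add, mul_smul]; exact smul_mem_of_mem _ (pow_mem hx n') hn
    · rw [pow_add, mul_smul]; exact smul_mem_of_mem _ (pow_mem hx n) hn'

theorem smul_le_smul_top {B : Subalgebra R A} {J : Submodule A A} {p : Submodule B A}
    (h : ∀ a ∈ p, a ∈ J) {q : Submodule B M} {v : M} (hv : v ∈ p • q) :
    v ∈ J • (⊤ : Submodule A M) := by
  induction hv using Submodule.smul_induction_on' with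
  | smul a ha w _ => exact Submodule.smul_mem_smul (h a ha) Submodule.mem_top
  | add a _ b _ ha hb => exact add_mem ha hb

/-- A lattice inside a submodule, regarded as a lattice of that submodule. -/
def restrictLat (N : Submodule A M) {B : Subalgebra R A} (q : Submodule B M) : Submodule B N where
  carrier := {v | (v : M) ∈ q}
  add_mem' ha hb := q.add_mem ha hb
  zero_mem' := q.zero_mem
  smul_mem' c _ hv := q.smul_mem c hv

theorem mem_restrictLat (N : Submodule A M) {B : Subalgebra R A} (q : Submodule B M) (v : N) :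
    v ∈ restrictLat N q ↔ (v : M) ∈ q := Iff.rfl

theorem invertible_restrictLat (N : Submodule A M) {B : Subalgebra R A} (q : Submodule B M)
    (hle : ∀ v ∈ q, v ∈ N) (hq : Module.Invertible B q) :
    Module.Invertible B (restrictLat N q) :=
  have := hq
  let e : q ≃ₗ[B] restrictLat N q :=
    { toFun := fun v => ⟨⟨v, hle v v.2⟩, v.2⟩
      map_add' := fun _ _ => rfl
      map_smul' := fun _ _ => rfl
      invFun := fun w => ⟨(w : N), w.2⟩
      left_inv := fun _ => rfl
      right_inv := fun _ => rfl }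
  Module.Invertible.congr e

variable {D : DivData Bp Bm}

theorem Good.invertible_smul_p (hxy : IsChartPair Bp Bm x y) (h : D.Good x y) (q : Submodule Bp M)
    (hq : Module.Invertible Bp q) :
    Module.Invertible Bp (restrictLat (D.J • (⊤ : Submodule A M)) (D.p • q)) :=
  invertible_restrictLat _ _ (fun _ hv => smul_le_smul_top h.le_p hv)
    (invertible_smul_sub hxy.mem_x hxy.isUnit_x hxy.pow_x D.p q h.invertible_p hq)

theorem Good.invertible_smul_m (hxy : IsChartPair Bp Bm x y) (h : D.Good x y) (q : Submodule Bm M)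
    (hq : Module.Invertible Bm q) :
    Module.Invertible Bm (restrictLat (D.J • (⊤ : Submodule A M)) (D.m • q)) :=
  invertible_restrictLat _ _ (fun _ hv => smul_le_smul_top h.le_m hv)
    (invertible_smul_sub hxy.mem_y hxy.isUnit_y hxy.pow_y D.m q h.invertible_m hq)

end DivData

end Fermat.Agent.RelPic
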