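import Fermat.Agent.RelPic.Point.DivCore

/-!
# Functoriality of the action of divisors on modules
-/

set_option autoImplicit false

noncomputable section

universe u

open scoped TensorProduct Pointwise

namespace Fermat.Agent.RelPic

namespace DivData

section Linear

variable {R A : Type u} [CommRing R] [CommRing A] [Algebra R A]
variable {M M' : Type u} [AddCommGroup M] [Module A M] [AddCommGroup M'] [Module A M']

/-- The image of a lattice under a linear map. -/
def mapLat {B : Subalgebra R A} (f : M →ₗ[A] M') (q : Submodule B M) : Submodule B M' where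
  carrier := f '' q
  add_mem' := by
    rintro _ _ ⟨a, ha, rfl⟩ ⟨b, hb, rfl⟩
    exact ⟨a + b, q.add_mem ha hb, map_add f a b⟩
  zero_mem' := ⟨0, q.zero_mem, map_zero f⟩
  smul_mem' := by
    rintro c _ ⟨a, ha, rfl⟩
    exact ⟨(c : A) • a, q.smul_mem c ha, map_smul f (c : A) a⟩

theorem mapLat_smul {B : Subalgebra R A} (f : M →ₗ[A] M') (p : Submodule B A) (q : Submodule B M) :
    mapLat f (p • q) = p • mapLat f q := by
  refine le_antisymm ?_ (Submodule.smul_le.mpr ?_)
  · rintro _ ⟨v, hv, rfl⟩
    induction hv using Submodule.smul_induction_on' with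
    | smul a ha w hw => rw [map_smul]; exact Submodule.smul_mem_smul ha ⟨w, hw, rfl⟩
    | add a _ b _ ha hb => rw [map_add]; exact add_mem ha hb
  · rintro a ha _ ⟨w, hw, rfl⟩
    exact ⟨a • w, Submodule.smul_mem_smul ha hw, map_smul f a w⟩

theorem mapLat_restrictLat (N : Submodule A M) {B : Subalgebra R A} (q : Submodule B M)
    (hle : ∀ v ∈ q, v ∈ N) : mapLat N.subtype (restrictLat N q) = q := by
  ext v
  exact ⟨fun ⟨w, hw, e⟩ => e ▸ hw, fun hv => ⟨⟨v, hle v hv⟩, hv, rfl⟩⟩

theorem map_smul_top (f : M →ₗ[A] M') (J : Submodule A A) (N : Submodule A M) :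
    (J • N).map f = J • N.map f := by
  refine le_antisymm ?_ (Submodule.smul_le.mpr ?_)
  · rintro _ ⟨v, hv, rfl⟩
    induction hv using Submodule.smul_induction_on' with
    | smul a ha w hw => rw [map_smul]; exact Submodule.smul_mem_smul ha ⟨w, hw, rfl⟩
    | add a _ b _ ha hb => rw [map_add]; exact add_mem ha hb
  · rintro a ha _ ⟨w, hw, rfl⟩
    exact ⟨a • w, Submodule.smul_mem_smul ha hw, map_smul f a w⟩

/-- An injective map between two modules, restricted to submodules it identifies. -/
def restrictEquiv (f : M →ₗ[A] M') (hf : Function.Injective f) (N : Submodule A M)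
    (N' : Submodule A M') (hN : N.map f = N') : N ≃ₗ[A] N' :=
  (Submodule.equivMapOfInjective f hf N).trans (LinearEquiv.ofEq _ _ hN)

theorem coe_restrictEquiv (f : M →ₗ[A] M') (hf : Function.Injective f) (N : Submodule A M)
    (N' : Submodule A M') (hN : N.map f = N') (v : N) :
    (restrictEquiv f hf N N' hN v : M') = f v := rfl

theorem restrictEquiv_mem {B : Subalgebra R A} (f : M →ₗ[A] M') (hf : Function.Injective f)
    (N : Submodule A M) (N' : Submodule A M') (hN : N.map f = N') (q : Submodule B M)
    (q' : Submodule B M') (hq : mapLat f q = q') (v : N) :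
    v ∈ restrictLat N q ↔ restrictEquiv f hf N N' hN v ∈ restrictLat N' q' := by
  rw [mem_restrictLat, mem_restrictLat, coe_restrictEquiv, ← hq]
  exact ⟨fun h => ⟨_, h, rfl⟩, fun ⟨w, hw, e⟩ => hf e ▸ hw⟩

theorem mapLat_lsmul {B : Subalgebra R A} (g : A) (q : Submodule B M) :
    mapLat (LinearMap.lsmul A M g) q = Submodule.span B {g} • q := by
  refine le_antisymm ?_ (Submodule.smul_le.mpr fun a ha w hw => ?_)
  · rintro _ ⟨v, hv, rfl⟩
    exact Submodule.smul_mem_smul (Submodule.subset_span rfl) hv
  · obtain ⟨c, rfl⟩ := Submodule.mem_span_singleton.mp ha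
    refine ⟨(c : A) • w, q.smul_mem c hw, ?_⟩
    show g • (c : A) • w = ((c : A) * g) • w
    rw [smul_smul, mul_comm]

theorem map_lsmul (g : A) (N : Submodule A M) :
    N.map (LinearMap.lsmul A M g) = Submodule.span A {g} • N := by
  refine le_antisymm ?_ (Submodule.smul_le.mpr fun a ha w hw => ?_)
  · rintro _ ⟨v, hv, rfl⟩
    exact Submodule.smul_mem_smul (Submodule.subset_span rfl) hv
  · obtain ⟨c, rfl⟩ := Submodule.mem_span_singleton.mp ha
    exact ⟨c • w, N.smul_mem c hw, by simp [smul_smul, mul_comm]⟩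

theorem mul_smul_lat {B : Subalgebra R A} (p p' : Submodule B A) (q : Submodule B M) :
    (p * p') • q = p • (p' • q) := by
  refine le_antisymm (Submodule.smul_le.mpr fun a ha w hw => ?_) (Submodule.smul_le.mpr ?_)
  · induction ha using Submodule.mul_induction_on' with
    | mem_mul_mem a ha b hb =>
      rw [mul_smul]; exact Submodule.smul_mem_smul ha (Submodule.smul_mem_smul hb hw)
    | add a _ b _ ha hb => rw [add_smul]; exact add_mem ha hb
  · intro a ha v hv
    induction hv using Submodule.smul_induction_on' with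
    | smul b hb w hw => rw [← mul_smul]; exact Submodule.smul_mem_smul (Submodule.mul_mem_mul ha hb) hw
    | add v _ w _ hv hw => rw [smul_add]; exact add_mem hv hw

theorem one_smul_lat {B : Subalgebra R A} (q : Submodule B M) :
    (1 : Submodule B A) • q = q := by
  refine le_antisymm (Submodule.smul_le.mpr fun a ha w hw => ?_) fun v hv => ?_
  · obtain ⟨c, rfl⟩ := Submodule.mem_one.mp ha
    exact q.smul_mem c hw
  · simpa using Submodule.smul_mem_smul (Submodule.one_le.mp le_rfl : (1 : A) ∈ (1 : Submodule B A)) hv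

end Linear

section Semilinear

variable {R A R' A' : Type u} [CommRing R] [CommRing A] [Algebra R A] [CommRing R'] [CommRing A']
  [Algebra R' A'] {Bp Bm : Subalgebra R A} {Bp' Bm' : Subalgebra R' A'}

/-- A map of rings carries one divisor to another, generating it. -/
structure Maps (h : A →+* A') (D : DivData Bp Bm) (D' : DivData Bp' Bm') : Prop where
  map_J : ∀ a ∈ D.J, h a ∈ D'.J
  map_p : ∀ a ∈ D.p, h a ∈ D'.p
  map_m : ∀ a ∈ D.m, h a ∈ D'.m
  span_p : ∀ a ∈ D'.p, a ∈ Submodule.span R' (h '' D.p)
  span_m : ∀ a ∈ D'.m, a ∈ Submodule.span R' (h '' D.m)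

variable {M M' : Type u} [AddCommGroup M] [Module A M] [AddCommGroup M'] [Module A' M']
  [Module R' M'] [IsScalarTower R' A' M'] {h : A →+* A'} {f : M →+ M'}
  (hf : ∀ (a : A) (v : M), f (a • v) = h a • f v)
include hf

theorem map_mem_smul {B : Subalgebra R A} {B' : Subalgebra R' A'} {p : Submodule B A}
    {q : Submodule B M} {p' : Submodule B' A'} {q' : Submodule B' M'}
    (hp : ∀ a ∈ p, h a ∈ p') (hq : ∀ v ∈ q, f v ∈ q') {v : M} (hv : v ∈ p • q) :
    f v ∈ p' • q' := by
  induction hv using Submodule.smul_induction_on' with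
  | smul a ha w hw => rw [hf]; exact Submodule.smul_mem_smul (hp a ha) (hq w hw)
  | add a _ b _ ha hb => rw [map_add]; exact add_mem ha hb

theorem map_mem_smul_top {J : Submodule A A} {J' : Submodule A' A'} (hJ : ∀ a ∈ J, h a ∈ J')
    {v : M} (hv : v ∈ J • (⊤ : Submodule A M)) : f v ∈ J' • (⊤ : Submodule A' M') := by
  induction hv using Submodule.smul_induction_on' with
  | smul a ha w hw => rw [hf]; exact Submodule.smul_mem_smul (hJ a ha) Submodule.mem_top
  | add a _ b _ ha hb => rw [map_add]; exact add_mem ha hb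

theorem mem_span_image_smul {B : Subalgebra R A} {B' : Subalgebra R' A'} {p : Submodule B A}
    {q : Submodule B M} {p' : Submodule B' A'} {q' : Submodule B' M'}
    (hp : ∀ a ∈ p', a ∈ Submodule.span R' (h '' p))
    (hq : ∀ v ∈ q', v ∈ Submodule.span R' (f '' q)) {v : M'} (hv : v ∈ p' • q') :
    v ∈ Submodule.span R' (f '' (p • q : Submodule B M)) := by
  induction hv using Submodule.smul_induction_on' with
  | smul a ha w hw =>
    have ha' := hp a ha
    have hw' := hq w hw
    clear hw ha
    induction ha' using Submodule.span_induction with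
    | mem b hb =>
      obtain ⟨b₀, hb₀, rfl⟩ := hb
      induction hw' using Submodule.span_induction with
      | mem c hc =>
        obtain ⟨c₀, hc₀, rfl⟩ := hc
        exact Submodule.subset_span ⟨b₀ • c₀, Submodule.smul_mem_smul hb₀ hc₀, hf b₀ c₀⟩
      | zero => simp
      | add c d _ _ hc hd => rw [smul_add]; exact add_mem hc hd
      | smul r c _ hc => rw [smul_comm]; exact Submodule.smul_mem _ r hc
    | zero => simp
    | add b b' _ _ hb hb' => rw [add_smul]; exact add_mem hb hb'
    | smul r b _ hb => rw [smul_assoc]; exact Submodule.smul_mem _ r hb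
  | add a _ b _ ha hb => exact add_mem ha hb

omit hf in
theorem Maps.mul {D E : DivData Bp Bm} {D' E' : DivData Bp' Bm'} (hD : Maps h D D')
    (hE : Maps h E E') : Maps h (D * E) (D' * E') where
  map_J a ha := by
    induction ha using Submodule.mul_induction_on' with
    | mem_mul_mem a ha b hb => rw [map_mul]; exact Submodule.mul_mem_mul (hD.map_J a ha) (hE.map_J b hb)
    | add a _ b _ ha hb => rw [map_add]; exact add_mem ha hb
  map_p _ ha := map_mem_smul (f := h.toAddMonoidHom) (map_mul h) hD.map_p hE.map_p ha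
  map_m _ ha := map_mem_smul (f := h.toAddMonoidHom) (map_mul h) hD.map_m hE.map_m ha
  span_p _ ha := mem_span_image_smul (f := h.toAddMonoidHom) (map_mul h) hD.span_p hE.span_p ha
  span_m _ ha := mem_span_image_smul (f := h.toAddMonoidHom) (map_mul h) hD.span_m hE.span_m ha

omit hf in
theorem span_image_restrictLat {B : Subalgebra R A} {B' : Subalgebra R' A'} {N : Submodule A M}
    {N' : Submodule A' M'} (g : N →+ N') (hg : ∀ v : N, (g v : M') = f v) (q : Submodule B M)
    (hle : ∀ v ∈ q, v ∈ N) (q' : Submodule B' M')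
    (hq : ∀ v ∈ q', v ∈ Submodule.span R' (f '' q)) {w : N'} (hw : w ∈ restrictLat N' q') :
    w ∈ Submodule.span R' (g '' (restrictLat N q : Set N)) := by
  let ι : N' →ₗ[R'] M' := N'.subtype.restrictScalars R'
  have himage : f '' (q : Set M) = ι '' (g '' (restrictLat N q : Set N)) := by
    ext v
    constructor
    · rintro ⟨u, hu, rfl⟩
      exact ⟨g ⟨u, hle u hu⟩, ⟨⟨u, hle u hu⟩, hu, rfl⟩, hg _⟩
    · rintro ⟨_, ⟨u, hu, rfl⟩, rfl⟩
      exact ⟨u, hu, (hg u).symm⟩
  have h1 := hq _ hw
  rw [himage, ← Submodule.map_span] at h1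
  obtain ⟨w', hw', e⟩ := h1
  rwa [show w = w' from Subtype.ext e.symm]

end Semilinear

end DivData

end Fermat.Agent.RelPic
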