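import Mathlib.RingTheory.PicardGroup
import Mathlib.RingTheory.Localization.Away.Basic
import Mathlib.RingTheory.Ideal.Colon

/-!
# Invertible submodules of algebras and their products with lattices
-/

set_option autoImplicit false

noncomputable section

open scoped TensorProduct Pointwise

namespace Fermat.Agent.RelPic

section Partner

variable {B A : Type*} [CommRing B] [CommRing A] [Algebra B A] [FaithfulSMul B A]

/-- A submodule having a product equal to the multiples of a regular element is invertible. -/
theorem invertible_of_mul_eq_span {N N' : Submodule B A} {g : A} (hg : IsRegular g)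
    (h : N * N' = Submodule.span B {g}) : Module.Invertible B N := by
  let L := Localization.Away g
  let f : A →ₐ[B] L := IsScalarTower.toAlgHom B A L
  have hf : Function.Injective f := IsLocalization.injective L
    (Submonoid.powers_le.mpr (mem_nonZeroDivisors_iff_right.mpr fun z hz =>
      hg.right (by simpa using hz)))
  have : FaithfulSMul B L := (faithfulSMul_iff_algebraMap_injective B L).mpr fun b c hbc =>
    FaithfulSMul.algebraMap_injective B A (hf (by
      simpa [f, ← IsScalarTower.algebraMap_apply] using hbc))
  obtain ⟨w, hw⟩ := IsLocalization.Away.algebraMap_isUnit (S := L) g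
  have hmul : N.map f.toLinearMap * (N'.map f.toLinearMap * Submodule.span B {(↑w⁻¹ : L)}) = 1 := by
    rw [← mul_assoc, ← Submodule.map_mul, h, Submodule.map_span, Set.image_singleton,
      Submodule.span_mul_span, Set.singleton_mul_singleton, Submodule.one_eq_span]
    congr 2
    show algebraMap A L g * ↑w⁻¹ = 1
    rw [← hw, Units.mul_inv]
  have hu : IsUnit (N.map f.toLinearMap) := IsUnit.of_mul_eq_one _ hmul
  have h1 : Module.Invertible B ↥((hu.unit : (Submodule B L)ˣ) : Submodule B L) := inferInstance
  rw [hu.unit_spec] at h1
  exact Module.Invertible.congr (Submodule.equivMapOfInjective f.toLinearMap hf N).symm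

end Partner

/-- An invertible ideal containing `g` has a product equal to the multiples of `g`. -/
theorem exists_mul_eq_span_of_invertible {S : Type*} [CommRing S] (N : Ideal S)
    [Module.Invertible S N] {g : S} (hg : g ∈ N) :
    N * (Ideal.span {g}).colon (N : Set S) = Ideal.span {g} := by
  refine le_antisymm (Ideal.mul_le.mpr fun a ha b hb => ?_)
    ((Ideal.span_singleton_le_iff_mem _).mpr ?_)
  · have h := Submodule.mem_colon.mp hb a ha
    rwa [smul_eq_mul, mul_comm] at h
  · obtain ⟨t, ht⟩ := (Module.Invertible.bijective (R := S) (M := N)).2 1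
    have key : ∀ t : Module.Dual S N ⊗[S] N,
        g * contractLeft S N t ∈ N * (Ideal.span {g}).colon (N : Set S) := by
      intro t
      induction t using TensorProduct.induction_on with
      | zero => simp
      | tmul f n =>
        have e : ∀ m : N, g * f m = f ⟨g, hg⟩ * (m : S) := fun m => by
          have h1 : g • m = (m : S) • (⟨g, hg⟩ : N) := Subtype.ext (mul_comm g m)
          have h2 := congrArg f h1
          rw [map_smul, map_smul, smul_eq_mul, smul_eq_mul] at h2
          rw [h2, mul_comm]
        rw [contractLeft_apply, e n, mul_comm N]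
        refine Ideal.mul_mem_mul (Submodule.mem_colon.mpr fun a ha => ?_) n.2
        rw [smul_eq_mul, ← e ⟨a, ha⟩]
        exact Ideal.mem_span_singleton'.mpr ⟨f ⟨a, ha⟩, mul_comm _ _⟩
      | add x y hx hy => rw [map_add, mul_add]; exact add_mem hx hy
    have h := key t
    rwa [ht, mul_one] at h

section Smul

variable {B A M : Type*} [CommRing B] [CommRing A] [Algebra B A] [AddCommGroup M] [Module A M]
  [Module B M] [IsScalarTower B A M]

/-- Multiplication from the algebra times a lattice into the module. -/
def mulLattice (p : Submodule B M) : A ⊗[B] p →ₗ[B] M :=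
  TensorProduct.lift ((Algebra.lsmul B B M).toLinearMap.compl₂ p.subtype)

theorem mulLattice_tmul (p : Submodule B M) (a : A) (v : p) :
    mulLattice p (a ⊗ₜ v) = a • (v : M) := rfl

variable {X : B} (hX : IsUnit (algebraMap B A X))
  (hA : ∀ a : A, ∃ (n : ℕ) (b : B), algebraMap B A b = algebraMap B A X ^ n * a)
include hX hA

theorem mulLattice_injective (p : Submodule B M) :
    Function.Injective (mulLattice (A := A) p) := by
  have hden : ∀ t : A ⊗[B] p, ∃ (n : ℕ) (v : p), (X ^ n) • t = (1 : A) ⊗ₜ v := by
    intro t
    induction t using TensorProduct.induction_on with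
    | zero => exact ⟨0, 0, by simp⟩
    | tmul a v =>
      obtain ⟨n, b, hb⟩ := hA a
      refine ⟨n, b • v, ?_⟩
      rw [TensorProduct.smul_tmul', Algebra.smul_def, map_pow, ← hb, ← TensorProduct.smul_tmul,
        Algebra.smul_def, mul_one]
    | add x y hx hy =>
      obtain ⟨n, v, hv⟩ := hx
      obtain ⟨n', v', hv'⟩ := hy
      refine ⟨n + n', X ^ n' • v + X ^ n • v', ?_⟩
      rw [smul_add, TensorProduct.tmul_add, TensorProduct.tmul_smul, TensorProduct.tmul_smul,
        ← hv, ← hv', smul_smul, smul_smul, ← pow_add, ← pow_add, add_comm n' n]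
  rw [injective_iff_map_eq_zero]
  intro t ht
  obtain ⟨n, v, hv⟩ := hden t
  have hv0 : (v : M) = 0 := by
    have h := congrArg (mulLattice (A := A) p) hv
    rw [map_smul, ht, smul_zero, mulLattice_tmul, one_smul] at h
    exact h.symm
  rw [show v = 0 from Subtype.ext hv0, TensorProduct.tmul_zero] at hv
  obtain ⟨u, hu⟩ := hX.pow n
  have h2 : ((↑u⁻¹ : A) * algebraMap B A (X ^ n)) • t = 0 := by
    rw [mul_smul, algebraMap_smul, hv, smul_zero]
  rwa [map_pow, ← hu, Units.inv_mul, one_smul] at h2

/-- The product of an invertible submodule of the algebra with an invertible lattice is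
invertible. -/
theorem invertible_smul (N : Submodule B A) (p : Submodule B M) [Module.Invertible B N]
    [Module.Invertible B p] : Module.Invertible B ↥(N • p) := by
  let f := mulLattice (A := A) p ∘ₗ N.subtype.rTensor p
  have hinj : Function.Injective f := (mulLattice_injective hX hA p).comp
    (Module.Flat.rTensor_preserves_injective_linearMap N.subtype N.subtype_injective)
  have hrange : LinearMap.range f = N • p := by
    refine le_antisymm ?_ (Submodule.smul_le.mpr fun a ha v hv => ?_)
    · rintro _ ⟨t, rfl⟩
      induction t using TensorProduct.induction_on with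
      | zero => simp
      | tmul a v => exact Submodule.smul_mem_smul a.2 v.2
      | add x y hx hy => rw [map_add]; exact add_mem hx hy
    · exact ⟨(⟨a, ha⟩ : N) ⊗ₜ (⟨v, hv⟩ : p), rfl⟩
  exact Module.Invertible.congr ((LinearEquiv.ofInjective f hinj).trans (LinearEquiv.ofEq _ _ hrange))

end Smul

/-- For an invertible module, a functional evaluated at one vector moves another vector. -/
theorem functional_smul_comm {A M : Type*} [CommRing A] [AddCommGroup M] [Module A M]
    [Module.Invertible A M] (f : M →ₗ[A] A) (v w : M) : f v • w = f w • v := by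
  have h : v ⊗ₜ[A] w = w ⊗ₜ v := Module.Invertible.tmul_comm (R := A) (M := M)
  simpa using congrArg (fun t => TensorProduct.lid A M (f.rTensor M t)) h

/-- A vector is in `I • M` as soon as all functionals send it into `I`. -/
theorem mem_smul_top_of_forall_dual {A M : Type*} [CommRing A] [AddCommGroup M] [Module A M]
    [Module.Projective A M] {I : Ideal A} {v : M} (h : ∀ f : M →ₗ[A] A, f v ∈ I) :
    v ∈ I • (⊤ : Submodule A M) := by
  obtain ⟨s, hs⟩ := Module.projective_def.mp ‹Module.Projective A M›
  rw [← hs v, Finsupp.linearCombination_apply, Finsupp.sum]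
  exact sum_mem fun w _ => Submodule.smul_mem_smul (h ((Finsupp.lapply w).comp s)) trivial

/-- A nonzero vector of a projective module has a nonzero coordinate. -/
theorem exists_dual_ne_zero {A M : Type*} [CommRing A] [AddCommGroup M] [Module A M]
    [Module.Projective A M] {v : M} (hv : v ≠ 0) : ∃ f : M →ₗ[A] A, f v ≠ 0 := by
  by_contra! h
  have h' := mem_smul_top_of_forall_dual (I := ⊥) (v := v) fun f => by
    rw [h f]; exact zero_mem _
  rw [Submodule.bot_smul, Submodule.mem_bot] at h'
  exact hv h'

end Fermat.Agent.RelPic
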