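import Fermat.Agent.RelPic.Point.Div
import Fermat.Agent.RelPic.Point.Coprime

/-!
# The divisor of a point with values in the base ring, and its inverse
-/

set_option autoImplicit false
set_option synthInstance.maxHeartbeats 400000

noncomputable section

universe u

open scoped TensorProduct Pointwise

namespace Fermat.Agent.RelPic

variable {k : Type u} [Field k] {C : Model k} {R : Type u} [CommRing R] [Algebra k R]

namespace Model

variable (C)

/-- The diagonal of the first chart. -/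
abbrev diagIdeal : Ideal (C.Ap ⊗[k] C.Ap) :=
  RingHom.ker (Algebra.TensorProduct.lmul' k : C.Ap ⊗[k] C.Ap →ₐ[k] C.Ap)

/-- The difference of the coordinates of the two factors. -/
abbrev diagCoord : C.Ap ⊗[k] C.Ap := 1 ⊗ₜ ⟨C.x, C.x_mem⟩ - ⟨C.x, C.x_mem⟩ ⊗ₜ 1

theorem diagCoord_mem : C.diagCoord ∈ C.diagIdeal := by
  rw [RingHom.mem_ker, map_sub, Algebra.TensorProduct.lmul'_apply_tmul,
    Algebra.TensorProduct.lmul'_apply_tmul, one_mul, mul_one, sub_self]

/-- An ideal whose product with the diagonal is generated by the difference of coordinates. -/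
abbrev diagPartner : Ideal (C.Ap ⊗[k] C.Ap) :=
  (Ideal.span {C.diagCoord}).colon (C.diagIdeal : Set (C.Ap ⊗[k] C.Ap))

theorem diagCoord_mem_partner : C.diagCoord ∈ C.diagPartner :=
  Submodule.mem_colon.mpr fun a _ => Ideal.mem_span_singleton'.mpr ⟨a, mul_comm _ _⟩

theorem diag_mul_partner (hC : C.Regular) :
    C.diagIdeal * C.diagPartner = Ideal.span {C.diagCoord} :=
  have := hC.diag_p
  exists_mul_eq_span_of_invertible C.diagIdeal C.diagCoord_mem

variable {C}

/-- Evaluation of the first factor at a point. -/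
def ptHom (q : C.Ap →ₐ[k] R) : C.Ap ⊗[k] C.Ap →ₐ[k] R ⊗[k] C.Ap :=
  Algebra.TensorProduct.map q (AlgHom.id k C.Ap)

theorem ptHom_tmul (q : C.Ap →ₐ[k] R) (a b : C.Ap) : ptHom q (a ⊗ₜ b) = q a ⊗ₜ b := rfl

/-- The ideal of a point in the first chart over `Spec R`. -/
def ptIdeal (q : C.Ap →ₐ[k] R) : Ideal (R ⊗[k] C.Ap) := C.diagIdeal.map (ptHom q).toRingHom

/-- The complementary ideal of a point. -/
def ptIdeal' (q : C.Ap →ₐ[k] R) : Ideal (R ⊗[k] C.Ap) := C.diagPartner.map (ptHom q).toRingHom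

/-- The value of the coordinate at a point. -/
abbrev ptX (q : C.Ap →ₐ[k] R) : R := q ⟨C.x, C.x_mem⟩

/-- The coordinate minus its value at a point. -/
abbrev ptCoord (q : C.Ap →ₐ[k] R) : R ⊗[k] C.Ap :=
  C.xR R - algebraMap R (R ⊗[k] C.Ap) (ptX q)

theorem ptHom_diagCoord (q : C.Ap →ₐ[k] R) : ptHom q C.diagCoord = ptCoord q := by
  rw [map_sub, ptHom_tmul, ptHom_tmul, map_one]
  rfl

theorem ptIdeal_mul (hC : C.Regular) (q : C.Ap →ₐ[k] R) :
    ptIdeal q * ptIdeal' q = Ideal.span {ptCoord q} := by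
  rw [ptIdeal, ptIdeal', ← Ideal.map_mul, C.diag_mul_partner hC, Ideal.map_span, Set.image_singleton]
  exact congrArg (fun z => Ideal.span {z}) (ptHom_diagCoord q)

theorem ptCoord_mem (q : C.Ap →ₐ[k] R) : ptCoord q ∈ ptIdeal q :=
  ptHom_diagCoord q ▸ Ideal.mem_map_of_mem (ptHom q).toRingHom C.diagCoord_mem

theorem ptCoord_mem' (q : C.Ap →ₐ[k] R) : ptCoord q ∈ ptIdeal' q :=
  ptHom_diagCoord q ▸ Ideal.mem_map_of_mem (ptHom q).toRingHom C.diagCoord_mem_partner

theorem jp_ptCoord (q : C.Ap →ₐ[k] R) :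
    (C.jp R).toRingHom (ptCoord q) = C.X₀ R - algebraMap R (C.A R) (ptX q) := by
  show C.jp R (ptCoord q) = _
  rw [map_sub, AlgHom.commutes, Model.jp_xR]

/-- Evaluation at a point. -/
def evalP (q : C.Ap →ₐ[k] R) : R ⊗[k] C.Ap →ₐ[R] R :=
  Algebra.TensorProduct.lift (AlgHom.id R R) q fun _ _ => Commute.all _ _

theorem evalP_tmul (q : C.Ap →ₐ[k] R) (r : R) (a : C.Ap) : evalP q (r ⊗ₜ a) = r * q a := by
  simp [evalP]

theorem ptIdeal_eq_ker (q : C.Ap →ₐ[k] R) : ptIdeal q = RingHom.ker (evalP q) := by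
  refine le_antisymm (Ideal.map_le_iff_le_comap.mpr fun t ht => ?_) fun t ht => ?_
  · rw [Ideal.mem_comap, RingHom.mem_ker]
    have key : ∀ t : C.Ap ⊗[k] C.Ap,
        evalP q (ptHom q t) = q (Algebra.TensorProduct.lmul' k t) := by
      intro t
      induction t using TensorProduct.induction_on with
      | zero => simp
      | tmul a b => rw [ptHom_tmul, evalP_tmul, Algebra.TensorProduct.lmul'_apply_tmul, map_mul]
      | add a b ha hb => simp only [map_add, ha, hb]
    show evalP q (ptHom q t) = 0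
    rw [key, RingHom.mem_ker.mp ht, map_zero]
  · have key : ∀ t : R ⊗[k] C.Ap,
        t - algebraMap R (R ⊗[k] C.Ap) (evalP q t) ∈ ptIdeal q := by
      intro t
      induction t using TensorProduct.induction_on with
      | zero => simp
      | tmul r a =>
        have hd : (1 : C.Ap) ⊗ₜ[k] a - a ⊗ₜ 1 ∈ C.diagIdeal := by
          rw [RingHom.mem_ker, map_sub, Algebra.TensorProduct.lmul'_apply_tmul,
            Algebra.TensorProduct.lmul'_apply_tmul, one_mul, mul_one, sub_self]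
        have h := Ideal.mul_mem_left (ptIdeal q) (r ⊗ₜ[k] (1 : C.Ap))
          (Ideal.mem_map_of_mem (ptHom q).toRingHom hd)
        have e : (r ⊗ₜ[k] (1 : C.Ap)) * (ptHom q).toRingHom ((1 : C.Ap) ⊗ₜ[k] a - a ⊗ₜ 1) =
            r ⊗ₜ[k] a - algebraMap R (R ⊗[k] C.Ap) (evalP q (r ⊗ₜ a)) := by
          show (r ⊗ₜ[k] (1 : C.Ap)) * ptHom q _ = _
          rw [map_sub, ptHom_tmul, ptHom_tmul, map_one, mul_sub, evalP_tmul,
            Algebra.TensorProduct.algebraMap_apply, Algebra.TensorProduct.tmul_mul_tmul,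
            Algebra.TensorProduct.tmul_mul_tmul, mul_one, one_mul, mul_one]
          rfl
        rwa [e] at h
      | add a b ha hb =>
        rw [map_add, map_add, add_sub_add_comm]
        exact add_mem ha hb
    have h := key t
    rwa [RingHom.mem_ker.mp ht, map_zero, sub_zero] at h

end Model

namespace Div

open Model

/-- The divisor of a point of the first chart. -/
def ptDiv (q : C.Ap →ₐ[k] R) : Div C R := DivData.ofIdeal (C.jp R).toRingHom (ptIdeal q)

/-- The inverse divisor of a point of the first chart. -/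
def ptInv (q : C.Ap →ₐ[k] R) : Div C R :=
  DivData.ofIdeal (C.jp R).toRingHom (ptIdeal' q) * DivData.shift 1 (C.X₀ R)

theorem isRegular_jp_ptCoord (q : C.Ap →ₐ[k] R) :
    IsRegular ((C.jp R).toRingHom (ptCoord q)) := by
  rw [jp_ptCoord]; exact C.isRegular_X₀_sub R _

theorem isGood_ptDiv (hC : C.Regular) (q : C.Ap →ₐ[k] R) : (ptDiv q).IsGood :=
  DivData.ofIdeal_good _ (C.isChartPair R) (C.jp_mem R) (ptIdeal_mul hC q) (jp_ptCoord q)
    (ptCoord_mem q) (ptCoord_mem' q) (isRegular_jp_ptCoord q)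

theorem isGood_ptInv (hC : C.Regular) (q : C.Ap →ₐ[k] R) : (ptInv q).IsGood := by
  refine IsGood.mul (DivData.ofIdeal_good _ (C.isChartPair R) (C.jp_mem R)
    (by rw [mul_comm]; exact ptIdeal_mul hC q) (jp_ptCoord q)
    (ptCoord_mem' q) (ptCoord_mem q) (isRegular_jp_ptCoord q)) ?_
  simpa using DivData.good_shift (C.isChartPair R) 0 1

theorem ptDiv_mul_ptInv (hC : C.Regular) (q : C.Ap →ₐ[k] R) :
    ptDiv q * ptInv q = DivData.princ (C.X₀ R - algebraMap R (C.A R) (ptX q)) := by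
  rw [← jp_ptCoord]
  exact DivData.ofIdeal_mul_inverse _ (C.isChartPair R) (C.jp_mem R) (ptIdeal_mul hC q)
    (jp_ptCoord q) (ptCoord_mem q) (ptCoord_mem' q)

theorem one_sub_mem_ptDiv_m (q : C.Ap →ₐ[k] R) :
    1 - algebraMap R (C.A R) (ptX q) * C.Y₀ R ∈ (ptDiv q).m :=
  DivData.one_sub_mem _ (C.isChartPair R) (jp_ptCoord q) (ptCoord_mem q)

variable {R' : Type u} [CommRing R'] [Algebra k R'] (φ : R →ₐ[k] R')

theorem map_ofIdeal {g : R ⊗[k] C.Ap} {b : R} {N : Ideal (R ⊗[k] C.Ap)}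
    (hg : (C.jp R).toRingHom g = C.X₀ R - algebraMap R (C.A R) b) (hN : g ∈ N) :
    DivData.Maps (C.mapA φ).toRingHom
      (DivData.ofIdeal (C.jp R).toRingHom N : Div C R)
      (DivData.ofIdeal (C.jp R').toRingHom
        (N.map (Algebra.TensorProduct.map φ (AlgHom.id k C.Ap)).toRingHom) : Div C R') :=
  DivData.ofIdeal_maps (φ := φ) _ (C.isChartPair R) (C.jp_mem R) (C.isChartPair R')
    (C.mapA_jp φ) (fun s => C.mem_span_image_Cp φ (C.jp_mem R' s)) (fun _ => C.mapA_mem_Cm φ)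
    (fun _ => C.mem_span_image_Cp φ) (fun _ => C.mem_span_image_Cm φ)
    (fun a => by rw [Set.image_univ]; exact C.mem_span_range_mapA φ a)
    (fun _ => C.mapA_mem_Cp φ) (C.mapA_algebraMap φ) (C.mapA_Y₀ φ) hg hN

theorem ptHom_comp (q : C.Ap →ₐ[k] R) :
    (Algebra.TensorProduct.map φ (AlgHom.id k C.Ap)).toRingHom.comp (ptHom q).toRingHom =
      (ptHom (φ.comp q)).toRingHom := by
  have e : (Algebra.TensorProduct.map φ (AlgHom.id k C.Ap)).comp (ptHom q) = ptHom (φ.comp q) :=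
    Algebra.TensorProduct.ext (AlgHom.ext fun _ => rfl) (AlgHom.ext fun a => by
      simp [ptHom_tmul, Algebra.TensorProduct.map_tmul])
  rw [← e]; rfl

theorem maps_shift (a b : C.A R) :
    DivData.Maps (C.mapA φ).toRingHom (DivData.shift a b : Div C R)
      (DivData.shift (C.mapA φ a) (C.mapA φ b) : Div C R') :=
  DivData.maps_shift (fun _ => C.mapA_mem_Cp φ) (fun _ => C.mapA_mem_Cm φ)
    (fun _ => C.mem_span_image_Cp φ) (fun _ => C.mem_span_image_Cm φ)

theorem maps_one : DivData.Maps (C.mapA φ).toRingHom (1 : Div C R) (1 : Div C R') := by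
  rw [← DivData.shift_one (Bp := C.Cp R), ← DivData.shift_one (Bp := C.Cp R')]
  have h := maps_shift φ (1 : C.A R) 1
  rwa [map_one] at h

theorem maps_ptDiv (q : C.Ap →ₐ[k] R) :
    DivData.Maps (C.mapA φ).toRingHom (ptDiv q) (ptDiv (φ.comp q)) := by
  have h := map_ofIdeal φ (jp_ptCoord q) (ptCoord_mem q)
  rwa [ptIdeal, Ideal.map_map, ptHom_comp] at h

theorem maps_ptInv (q : C.Ap →ₐ[k] R) :
    DivData.Maps (C.mapA φ).toRingHom (ptInv q) (ptInv (φ.comp q)) := by
  have h := map_ofIdeal φ (jp_ptCoord q) (ptCoord_mem' q)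
  rw [ptIdeal', Ideal.map_map, ptHom_comp] at h
  have hs := maps_shift φ (1 : C.A R) (C.X₀ R)
  rw [map_one, C.mapA_X₀] at hs
  exact DivData.Maps.mul h hs

end Div

end Fermat.Agent.RelPic
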