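import Fermat.Agent.RelPic.Point.OfPoint

/-!
# Rational points of the overlap: their divisors, sums and coprimality
-/

set_option autoImplicit false
set_option synthInstance.maxHeartbeats 400000

noncomputable section

universe u

open scoped TensorProduct Pointwise

namespace Fermat.Agent.RelPic

variable {k : Type u} [Field k] {C : Model k} (R : Type u) [CommRing R] [Algebra k R]

namespace Model

/-- A rational point of the overlap as a point of the first chart over any base. -/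
def ptOf (Q : C.Pt) : C.Ap →ₐ[k] R :=
  (Algebra.ofId k R).comp (Q.comp (Subalgebra.inclusion C.Ap_le))

theorem comp_ptOf {R' : Type u} [CommRing R'] [Algebra k R'] (φ : R →ₐ[k] R') (Q : C.Pt) :
    φ.comp (ptOf R Q) = ptOf R' Q :=
  AlgHom.ext fun a => φ.commutes (Q (Subalgebra.inclusion C.Ap_le a))

theorem evalR_jp (Q : C.Pt) (t : R ⊗[k] C.Ap) : C.evalR R Q (C.jp R t) = evalP (ptOf R Q) t := by
  induction t using TensorProduct.induction_on with
  | zero => simp
  | tmul r a => rw [jp_tmul, evalR_tmul, evalP_tmul]; rfl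
  | add x y hx hy => simp only [map_add, hx, hy]

/-- The product of the ideals of some points. -/
abbrev ptsIdeal (l : List C.Pt) : Ideal (C.A R) :=
  (l.map fun Q => RingHom.ker (C.evalR R Q)).prod

end Model

namespace Div

open Model

variable {R}

theorem ptDiv_ptOf_J (Q : C.Pt) :
    (ptDiv (ptOf R Q)).J = RingHom.ker (C.evalR R Q) := by
  refine le_antisymm (Submodule.span_le.mpr ?_) fun a ha => ?_
  · rintro _ ⟨t, ht, rfl⟩
    show C.evalR R Q (C.jp R t) = 0
    rw [evalR_jp]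
    exact RingHom.mem_ker.mp (ptIdeal_eq_ker (ptOf R Q) ▸ ht)
  · obtain ⟨n, t, ht⟩ := C.exists_pow_mul_mem_Cp R a
    have ht' : C.jp R t = C.X₀ R ^ n * a := ht
    have h0 : t ∈ ptIdeal (ptOf R Q) := by
      rw [ptIdeal_eq_ker, RingHom.mem_ker, ← evalR_jp, ht', map_mul, RingHom.mem_ker.mp ha, mul_zero]
    have h1 : C.jp R t ∈ (ptDiv (ptOf R Q)).J := DivData.jimage_mem _ h0
    rw [ht'] at h1
    have h2 := Submodule.smul_mem _ (C.Y₀ R ^ n) h1
    rwa [smul_eq_mul, ← mul_assoc, C.Y₀_pow_mul_X₀_pow, one_mul] at h2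

theorem primeTo_ptDiv_m (q : C.Ap →ₐ[k] R) : DivData.PrimeTo (C.Y₀ R) (ptDiv q).m :=
  ⟨algebraMap R (C.A R) (ptX q), Subalgebra.algebraMap_mem _ _, one_sub_mem_ptDiv_m q⟩

theorem jp_ptCoord_mem_p (q : C.Ap →ₐ[k] R) :
    C.X₀ R - algebraMap R (C.A R) (ptX q) ∈ (ptDiv q).p := by
  rw [← jp_ptCoord]
  exact Submodule.subset_span ⟨_, ptCoord_mem q, rfl⟩

theorem primeTo_ptDiv_p (Q : C.Pt) : DivData.PrimeTo (C.X₀ R) (ptDiv (ptOf R Q)).p := by
  set b : k := Q C.x₀
  have hb : b ≠ 0 := C.pt_x₀_ne_zero Q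
  refine ⟨algebraMap R (C.A R) (algebraMap k R b⁻¹), Subalgebra.algebraMap_mem _ _, ?_⟩
  have hm := jp_ptCoord_mem_p (ptOf R Q)
  have e : 1 - algebraMap R (C.A R) (algebraMap k R b⁻¹) * C.X₀ R =
      algebraMap R (C.A R) (- algebraMap k R b⁻¹) *
        (C.X₀ R - algebraMap R (C.A R) (ptX (ptOf R Q))) := by
    have hX : ptX (ptOf R Q) = algebraMap k R b := rfl
    have key : algebraMap R (C.A R) (algebraMap k R b⁻¹) * algebraMap R (C.A R) (algebraMap k R b) =
        1 := by rw [← map_mul, ← map_mul, inv_mul_cancel₀ hb, map_one, map_one]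
    rw [hX, map_neg]
    linear_combination -key
  rw [e]
  exact mul_mem_of_mem _ (Subalgebra.algebraMap_mem _ _) hm

/-- The sum of some rational points of the overlap. -/
def ptsDiv (l : List C.Pt) : Div C R := (l.map fun Q => ptDiv (ptOf R Q)).prod

theorem ptsDiv_nil : (ptsDiv [] : Div C R) = 1 := rfl

theorem ptsDiv_cons (Q : C.Pt) (l : List C.Pt) :
    (ptsDiv (Q :: l) : Div C R) = ptDiv (ptOf R Q) * ptsDiv l := by
  simp [ptsDiv]

theorem isGood_ptsDiv (hC : C.Regular) (l : List C.Pt) : (ptsDiv l : Div C R).IsGood := by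
  induction l with
  | nil => exact isGood_one
  | cons Q l ih => rw [ptsDiv_cons]; exact (isGood_ptDiv hC _).mul ih

theorem ptsDiv_J (l : List C.Pt) : (ptsDiv l : Div C R).J = ptsIdeal R l := by
  induction l with
  | nil => rfl
  | cons Q l ih =>
    rw [ptsDiv_cons, DivData.mul_J, ptDiv_ptOf_J, ih]
    simp [Model.ptsIdeal]

theorem primeTo_ptsDiv (l : List C.Pt) :
    DivData.PrimeTo (C.X₀ R) (ptsDiv l : Div C R).p ∧
      DivData.PrimeTo (C.Y₀ R) (ptsDiv l : Div C R).m := by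
  induction l with
  | nil => exact ⟨DivData.primeTo_one, DivData.primeTo_one⟩
  | cons Q l ih =>
    rw [ptsDiv_cons]
    exact ⟨(primeTo_ptDiv_p Q).mul (C.X₀_mem_Cp R) ih.1,
      (primeTo_ptDiv_m _).mul (C.Y₀_mem_Cm R) ih.2⟩

theorem maps_ptsDiv {R' : Type u} [CommRing R'] [Algebra k R'] (φ : R →ₐ[k] R') (l : List C.Pt) :
    DivData.Maps (C.mapA φ).toRingHom (ptsDiv l : Div C R) (ptsDiv l : Div C R') := by
  induction l with
  | nil => exact maps_one φ
  | cons Q l ih =>
    rw [ptsDiv_cons, ptsDiv_cons, ← comp_ptOf R φ Q]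
    exact DivData.Maps.mul (maps_ptDiv φ _) ih

/-- Sums of points have inverses. -/
theorem exists_inverse_ptsDiv (hC : C.Regular) (l : List C.Pt) :
    ∃ (D : Div C R) (g : C.A R), D.IsGood ∧ IsRegular g ∧ D * ptsDiv l = DivData.princ g := by
  induction l with
  | nil =>
    refine ⟨1, 1, isGood_one, isRegular_one, ?_⟩
    rw [ptsDiv_nil, one_mul]
    refine DivData.ext' ?_ ?_ ?_ <;>
      simp [DivData.princ, DivData.one_J, DivData.one_p, DivData.one_m, Submodule.one_eq_span]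
  | cons Q l ih =>
    obtain ⟨D, g, hD, hg, e⟩ := ih
    refine ⟨ptInv (ptOf R Q) * D, _ * g, (isGood_ptInv hC _).mul hD,
      (C.isRegular_X₀_sub R (ptX (ptOf R Q))).mul hg, ?_⟩
    rw [ptsDiv_cons, mul_mul_mul_comm, e, mul_comm (ptInv _), ptDiv_mul_ptInv hC, DivData.princ_mul]

end Div

end Fermat.Agent.RelPic
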