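import Fermat.Agent.RelPic.Point.Overlap

/-!
# The twist of a triple attached to a chart index

The twisted triple lives on `i.sub T` with lattices `i.twistP T` and `i.twistM T j`; twisting is
functorial and invertible.
-/

set_option autoImplicit false
set_option synthInstance.maxHeartbeats 400000

noncomputable section

universe u

open scoped TensorProduct Pointwise

namespace Fermat.Agent.RelPic

variable {k : Type u} [Field k] {C : Model k} {R : Type u} [CommRing R] [Algebra k R]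

namespace Idx

open Model

variable (i : Idx C)

/-- The divisor of the twist attached to a chart index. -/
def twistDiv (R : Type u) [CommRing R] [Algebra k R] (j : ℕ) : Div C R :=
  ⟨ptsIdeal R i.Q, (Div.ptsDiv i.Q : Div C R).p,
    Submodule.span (C.Cm R) {C.X₀ R ^ (i.m + j)} * (Div.ptsDiv i.Q : Div C R).m⟩

theorem twistDiv_eq (R : Type u) [CommRing R] [Algebra k R] (j : ℕ) :
    i.twistDiv R j = DivData.shift 1 (C.X₀ R ^ (i.m + j)) * Div.ptsDiv i.Q := by
  refine DivData.ext' ?_ ?_ rfl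
  · rw [DivData.mul_J, Div.ptsDiv_J]
    exact (one_mul _).symm
  · rw [DivData.mul_p]
    show (Div.ptsDiv i.Q : Div C R).p = Submodule.span (C.Cp R) {(1 : C.A R)} * _
    rw [← Submodule.one_eq_span]
    exact (one_mul ((Div.ptsDiv i.Q : Div C R).p)).symm

theorem isGood_twistDiv (hC : C.Regular) (R : Type u) [CommRing R] [Algebra k R] (j : ℕ) :
    (i.twistDiv R j).IsGood := by
  rw [twistDiv_eq]
  exact (DivData.good_shift_of_isUnit (C.isChartPair R) isUnit_one
    ((C.isUnit_X₀ R).pow _)).mul (C.isChartPair R) (Div.isGood_ptsDiv hC _)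

/-- The twisted triple, on the module `i.sub T`. -/
abbrev twist (hC : C.Regular) (T : Triple C R) (j : ℕ) : Triple C R :=
  Div.act (i.twistDiv R j) (i.isGood_twistDiv hC R j) T

theorem mem_smul_p_iff (hC : C.Regular) (T : Triple C R) (j : ℕ) (v : T.M) :
    v ∈ (i.twistDiv R j).p • T.p ↔ v ∈ i.twistP T := by
  constructor
  · intro h
    refine ⟨(i.isGood_twistDiv hC R j).smul_p_le T v h, ?_⟩
    refine (Submodule.smul_le (P := T.p)).mpr (fun a ha w hw => ?_) h
    exact Triple.smul_mem_p T (by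
      have hle : ∀ a ∈ (Div.ptsDiv i.Q : Div C R).p, a ∈ C.Cp R := by
        induction i.Q with
        | nil => exact fun a ha => DivData.mem_of_mem_one ha
        | cons Q l ih =>
          intro a ha
          rw [Div.ptsDiv_cons, DivData.mul_p] at ha
          refine DivData.mem_of_mem_one ((Submodule.mul_le.mpr fun b hb c hc => ?_ :
            (Div.ptDiv (ptOf R Q)).p * (Div.ptsDiv l : Div C R).p ≤ 1) ha)
          refine DivData.one_mem_of_mem (mul_mem ?_ (ih c hc))
          refine DivData.mem_of_mem_one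
            ((Submodule.span_le.mpr ?_ : (Div.ptDiv (ptOf R Q)).p ≤ 1) hb)
          rintro _ ⟨t, -, rfl⟩
          exact DivData.one_mem_of_mem (C.jp_mem R t)
      exact hle a ha) hw
  · rintro ⟨hs, hp⟩
    refine (Div.primeTo_ptsDiv (R := R) i.Q).1.mem_smul (C.X₀_mem_Cp R) ?_
      T.exists_pow_smul_mem_p hs hp
    intro a ha
    exact (Div.isGood_ptsDiv hC i.Q).pow_p a (by rw [Div.ptsDiv_J]; exact ha)

theorem mem_smul_m_iff (hC : C.Regular) (T : Triple C R) (j : ℕ) (v : T.M) :
    v ∈ (i.twistDiv R j).m • T.m ↔ v ∈ i.twistM T j := by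
  have hmem : ∀ a ∈ (Div.ptsDiv i.Q : Div C R).m, a ∈ C.Cm R := by
    induction i.Q with
    | nil => exact fun a ha => DivData.mem_of_mem_one ha
    | cons Q l ih =>
      intro a ha
      rw [Div.ptsDiv_cons, DivData.mul_m] at ha
      refine DivData.mem_of_mem_one ((Submodule.mul_le.mpr fun b hb c hc => ?_ :
        (Div.ptDiv (ptOf R Q)).m * (Div.ptsDiv l : Div C R).m ≤ 1) ha)
      exact DivData.one_mem_of_mem (mul_mem (DivData.mem_of_mem_one hb.2) (ih c hc))
  have e : (i.twistDiv R j).m • T.m =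
      DivData.mapLat (LinearMap.lsmul (C.A R) T.M (C.X₀ R ^ (i.m + j)))
        ((Div.ptsDiv i.Q : Div C R).m • T.m) := by
    rw [DivData.mapLat_lsmul, ← DivData.mul_smul_lat]; rfl
  rw [e]
  constructor
  · rintro ⟨w, hw, rfl⟩
    refine ⟨?_, w, ?_, rfl⟩
    · refine Submodule.smul_mem _ (C.X₀ R ^ (i.m + j)) ?_
      show w ∈ ptsIdeal R i.Q • (⊤ : Submodule (C.A R) T.M)
      rw [← Div.ptsDiv_J]
      exact (Div.isGood_ptsDiv hC i.Q).smul_m_le T w hw
    · exact (Submodule.smul_le (P := T.m)).mpr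
        (fun a ha u hu => Triple.smul_mem_m T (hmem a ha) hu) hw
  · rintro ⟨hs, w, hw, hv⟩
    refine ⟨w, ?_, hv⟩
    refine (Div.primeTo_ptsDiv (R := R) i.Q).2.mem_smul (J := ptsIdeal R i.Q) (C.Y₀_mem_Cm R) ?_
      T.exists_pow_smul_mem_m ?_ hw
    · intro a ha
      exact (Div.isGood_ptsDiv hC i.Q).pow_m a (by rw [Div.ptsDiv_J]; exact ha)
    · have h2 : C.Y₀ R ^ (i.m + j) • v ∈ i.sub T :=
        (ptsIdeal R i.Q • (⊤ : Submodule (C.A R) T.M)).smul_mem _ hs
      rw [← hv] at h2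
      change C.Y₀ R ^ (i.m + j) • C.X₀ R ^ (i.m + j) • w ∈ i.sub T at h2
      rwa [T.Y_pow_smul_X_pow_smul] at h2

theorem mem_twist_p (hC : C.Regular) (T : Triple C R) (j : ℕ)
    (v : Div.actN (i.twistDiv R j) T) : v ∈ (i.twist hC T j).p ↔ (v : T.M) ∈ i.twistP T :=
  i.mem_smul_p_iff hC T j v

theorem mem_twist_m (hC : C.Regular) (T : Triple C R) (j : ℕ)
    (v : Div.actN (i.twistDiv R j) T) : v ∈ (i.twist hC T j).m ↔ (v : T.M) ∈ i.twistM T j :=
  i.mem_smul_m_iff hC T j v

theorem maps_twistDiv {R' : Type u} [CommRing R'] [Algebra k R'] (φ : R →ₐ[k] R') (j : ℕ) :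
    DivData.Maps (C.mapA φ).toRingHom (i.twistDiv R j) (i.twistDiv R' j) := by
  rw [twistDiv_eq, twistDiv_eq]
  have h := Div.maps_shift φ (1 : C.A R) (C.X₀ R ^ (i.m + j))
  rw [map_one, map_pow, C.mapA_X₀] at h
  exact DivData.Maps.mul h (Div.maps_ptsDiv φ i.Q)

/-- Twisting commutes with base change. -/
def twistBC (hC : C.Regular) {R' : Type u} [CommRing R'] [Algebra k R'] {φ : R →ₐ[k] R'}
    {T : Triple C R} {T' : Triple C R'} (F : Triple.BC φ T T') (j : ℕ) :
    Triple.BC φ (i.twist hC T j) (i.twist hC T' j) :=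
  Div.bcAct _ _ (i.maps_twistDiv φ j) F

theorem exists_inverse_twistDiv (hC : C.Regular) (R : Type u) [CommRing R] [Algebra k R] (j : ℕ) :
    ∃ (D : Div C R) (g : C.A R), D.IsGood ∧ IsRegular g ∧ D * i.twistDiv R j = DivData.princ g := by
  obtain ⟨D, g, hD, hg, e⟩ := Div.exists_inverse_ptsDiv (R := R) hC i.Q
  have hs := DivData.good_shift_of_isUnit (C.isChartPair R) (isUnit_one (M := C.A R))
    ((C.isUnit_Y₀ R).pow (i.m + j))
  refine ⟨DivData.shift 1 (C.Y₀ R ^ (i.m + j)) * D, g, hs.mul (C.isChartPair R) hD, hg, ?_⟩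
  rw [twistDiv_eq, mul_mul_mul_comm, e, DivData.shift_mul, C.Y₀_pow_mul_X₀_pow, one_mul,
    DivData.shift_one, one_mul]

/-- Every triple is a twist. -/
theorem exists_untwist (hC : C.Regular) (N : Triple C R) (j : ℕ) :
    ∃ T : Triple C R, Nonempty (Triple.Equiv (i.twist hC T j) N) := by
  obtain ⟨D, g, hD, hg, e⟩ := i.exists_inverse_twistDiv hC R j
  obtain ⟨f⟩ := Div.nonempty_equiv_act_inverse hD (i.isGood_twistDiv hC R j) hg
    (by rw [mul_comm]; exact e) N
  exact ⟨Div.act D hD N, ⟨f.symm⟩⟩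

/-- Triples with isomorphic twists are isomorphic. -/
theorem twist_cancel (hC : C.Regular) {T T' : Triple C R} (j : ℕ)
    (h : Triple.Equiv (i.twist hC T j) (i.twist hC T' j)) : Nonempty (Triple.Equiv T T') := by
  obtain ⟨D, g, hD, hg, e⟩ := i.exists_inverse_twistDiv hC R j
  obtain ⟨f⟩ := Div.nonempty_equiv_act_inverse (i.isGood_twistDiv hC R j) hD hg e T
  obtain ⟨f'⟩ := Div.nonempty_equiv_act_inverse (i.isGood_twistDiv hC R j) hD hg e T'
  exact ⟨(f.trans (Div.actCongr hD h)).trans f'.symm⟩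

end Idx

end Fermat.Agent.RelPic
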